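import Mathlib

/-!
# Row LT, tower T6, leaf T6.19 `OrbSumIntC` (helper846) -- abstract measure theory, OFF-MAIN

Mathlib only.  `G` a second countable topological group with its Borel σ-algebra, `μ` a left
invariant measure, `U` an open subgroup with `μ U = 1`; `H` a second group with a continuous
homomorphism `ι : H → G` and a left invariant measure `ν`.

* `lintegral_doubleCoset846` : if `∫ β(ι t · z) dν(t) = 1` for all `z`, then
  `ν {t | x⁻¹ ι(t) x ∈ U} · ∫_{ι(H) x U} β dμ = 1`   (two applications of Tonelli).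
-/

set_option autoImplicit false
set_option linter.unusedSectionVars false

open MeasureTheory
open scoped ENNReal

noncomputable section

namespace Fermat.Agent.LT.T6.H846

section Abstract

variable {G H : Type} [Group G] [Group H]

/-- The stabiliser in `H` of the coset `x U`. -/
def stab846 (ι : H →* G) (U : Subgroup G) (x : G) : Set H := {t | x⁻¹ * ι t * x ∈ U}

/-- The double coset `ι(H) x U`. -/
def dcoset846 (ι : H →* G) (U : Subgroup G) (x : G) : Set G :=
  {z | ∃ t : H, ∃ u ∈ U, z = ι t * x * u}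

section Top

variable [TopologicalSpace G] [IsTopologicalGroup G] [TopologicalSpace H]

theorem isOpen_stab846 (ι : H →* G) (hι : Continuous ι) (U : Subgroup G)
    (hU : IsOpen (U : Set G)) (x : G) : IsOpen (stab846 ι U x) := by
  have hc : Continuous fun t : H => x⁻¹ * ι t * x :=
    (continuous_const.mul hι).mul continuous_const
  exact hU.preimage hc

theorem isOpen_leftCoset846 (U : Subgroup G) (hU : IsOpen (U : Set G)) (x : G) :
    IsOpen {z : G | x⁻¹ * z ∈ U} :=
  hU.preimage (continuous_const.mul continuous_id)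

omit [TopologicalSpace G] [IsTopologicalGroup G] [TopologicalSpace H] in
theorem dcoset_eq_iUnion846 (ι : H →* G) (U : Subgroup G) (x : G) :
    dcoset846 ι U x = ⋃ t : H, {z : G | (ι t * x)⁻¹ * z ∈ U} := by
  ext z
  simp only [dcoset846, Set.mem_ofPred_eq, Set.mem_iUnion]
  constructor
  · rintro ⟨t, u, hu, rfl⟩
    refine ⟨t, ?_⟩
    have e : (ι t * x)⁻¹ * (ι t * x * u) = u := by group
    change (ι t * x)⁻¹ * (ι t * x * u) ∈ U
    rw [e]
    exact hu
  · rintro ⟨t, ht⟩
    exact ⟨t, _, ht, by group⟩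

theorem isOpen_dcoset846 (ι : H →* G) (U : Subgroup G) (hU : IsOpen (U : Set G)) (x : G) :
    IsOpen (dcoset846 ι U x) := by
  rw [dcoset_eq_iUnion846]
  exact isOpen_iUnion fun t => isOpen_leftCoset846 U hU _

end Top

/-- The fibre `{t | ι(t)⁻¹ z ∈ x U}` is a left translate of the stabiliser if `z ∈ ι(H) x U` and
is empty otherwise. -/
theorem fibre_eq846 (ι : H →* G) (U : Subgroup G) (x : G) (t₀ : H) (u₀ : G) (hu₀ : u₀ ∈ U) :
    {t : H | x⁻¹ * ((ι t)⁻¹ * (ι t₀ * x * u₀)) ∈ U}
      = (fun t => t₀⁻¹ * t) ⁻¹' stab846 ι U x := by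
  ext t
  simp only [Set.mem_ofPred_eq, Set.mem_preimage, stab846, map_mul, map_inv]
  have e1 : x⁻¹ * ((ι t)⁻¹ * (ι t₀ * x * u₀)) = (x⁻¹ * ((ι t₀)⁻¹ * ι t) * x)⁻¹ * u₀ := by group
  rw [e1]
  constructor
  · intro h
    have h2 := U.mul_mem hu₀ (U.inv_mem h)
    have e2 : u₀ * ((x⁻¹ * ((ι t₀)⁻¹ * ι t) * x)⁻¹ * u₀)⁻¹ = x⁻¹ * ((ι t₀)⁻¹ * ι t) * x := by
      group
    rwa [e2] at h2
  · intro h
    exact U.mul_mem (U.inv_mem h) hu₀

theorem fibre_empty846 (ι : H →* G) (U : Subgroup G) (x z : G) (hz : z ∉ dcoset846 ι U x) :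
    {t : H | x⁻¹ * ((ι t)⁻¹ * z) ∈ U} = ∅ := by
  ext t
  simp only [Set.mem_ofPred_eq, Set.mem_empty_iff_false, iff_false]
  intro h
  exact hz ⟨t, _, h, by group⟩

theorem measure_fibre846 [MeasurableSpace H] [MeasurableMul H]
    (ν : Measure H) [ν.IsMulLeftInvariant] (ι : H →* G) (U : Subgroup G) (x z : G) :
    ν {t : H | x⁻¹ * ((ι t)⁻¹ * z) ∈ U}
      = (dcoset846 ι U x).indicator (fun _ => ν (stab846 ι U x)) z := by
  by_cases hz : z ∈ dcoset846 ι U x
  · rw [Set.indicator_of_mem hz]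
    obtain ⟨t₀, u₀, hu₀, rfl⟩ := hz
    rw [fibre_eq846 ι U x t₀ u₀ hu₀, measure_preimage_mul]
  · rw [Set.indicator_of_notMem hz, fibre_empty846 ι U x z hz, measure_empty]

variable [TopologicalSpace G] [IsTopologicalGroup G]
  [SecondCountableTopology G] [MeasurableSpace G] [BorelSpace G]
  [TopologicalSpace H] [IsTopologicalGroup H]
  [SecondCountableTopology H] [MeasurableSpace H] [BorelSpace H]
  (μ : Measure G) [μ.IsMulLeftInvariant] [SFinite μ]
  (ν : Measure H) [ν.IsMulLeftInvariant] [SFinite ν]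

/-- **Key identity** (Weil's formula for the open subgroup `U`, by Tonelli). -/
theorem lintegral_doubleCoset846 (ι : H →* G) (hι : Continuous ι) (U : Subgroup G)
    (hU : IsOpen (U : Set G)) (hμU : μ (U : Set G) = 1)
    (β : G → ℝ≥0∞) (hβ : Measurable β) (hβ1 : ∀ z, ∫⁻ t : H, β (ι t * z) ∂ν = 1) (x : G) :
    ν (stab846 ι U x) * ∫⁻ z in dcoset846 ι U x, β z ∂μ = 1 := by
  classical
  -- the coset `x U`
  set A : Set G := {z : G | x⁻¹ * z ∈ U} with hA
  have hAo : IsOpen A := isOpen_leftCoset846 U hU x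
  have hAm : MeasurableSet A := hAo.measurableSet
  have hμA : μ A = 1 := by
    have : A = (fun z => x⁻¹ * z) ⁻¹' (U : Set G) := rfl
    rw [this, measure_preimage_mul, hμU]
  have hιm : Measurable ι := hι.measurable
  -- step 1
  have h1 : ∫⁻ z, ∫⁻ t : H, A.indicator (fun _ => (1 : ℝ≥0∞)) z * β (ι t * z) ∂ν ∂μ = 1 := by
    have : ∀ z, ∫⁻ t : H, A.indicator (fun _ => (1 : ℝ≥0∞)) z * β (ι t * z) ∂ν
        = A.indicator (fun _ => (1 : ℝ≥0∞)) z := by
      intro z
      rw [lintegral_const_mul' _ _ (by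
        by_cases hz : z ∈ A
        · simp [Set.indicator_of_mem hz]
        · simp [Set.indicator_of_notMem hz]), hβ1 z, mul_one]
    simp_rw [this]
    rw [lintegral_indicator hAm]
    simp [hμA]
  -- measurability on the product
  have hm1 : Measurable fun p : G × H => A.indicator (fun _ => (1 : ℝ≥0∞)) p.1 * β (ι p.2 * p.1) := by
    refine Measurable.mul ?_ ?_
    · exact (measurable_const.indicator hAm).comp measurable_fst
    · exact hβ.comp ((hιm.comp measurable_snd).mul measurable_fst)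
  -- step 2: Tonelli
  have h2 : ∫⁻ t : H, ∫⁻ z, A.indicator (fun _ => (1 : ℝ≥0∞)) z * β (ι t * z) ∂μ ∂ν = 1 := by
    refine Eq.trans ?_ h1
    exact (lintegral_lintegral_swap (μ := μ) (ν := ν) (f := fun z (t : H) =>
      A.indicator (fun _ => (1 : ℝ≥0∞)) z * β (ι t * z)) hm1.aemeasurable).symm
  -- step 3: left invariance
  have h3 : ∀ t : H, ∫⁻ z, A.indicator (fun _ => (1 : ℝ≥0∞)) z * β (ι t * z) ∂μ
      = ∫⁻ z, A.indicator (fun _ => (1 : ℝ≥0∞)) ((ι t)⁻¹ * z) * β z ∂μ := by
    intro t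
    have := lintegral_mul_left_eq_self (μ := μ)
      (fun z => A.indicator (fun _ => (1 : ℝ≥0∞)) ((ι t)⁻¹ * z) * β z) (ι t)
    rw [← this]
    simp
  simp_rw [h3] at h2
  -- step 4: Tonelli again
  have hm2 : Measurable fun p : H × G =>
      A.indicator (fun _ => (1 : ℝ≥0∞)) ((ι p.1)⁻¹ * p.2) * β p.2 := by
    refine Measurable.mul ?_ ?_
    · exact (measurable_const.indicator hAm).comp
        (((hιm.comp measurable_fst).inv).mul measurable_snd)
    · exact hβ.comp measurable_snd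
  have h4 : ∫⁻ z, ∫⁻ t : H, A.indicator (fun _ => (1 : ℝ≥0∞)) ((ι t)⁻¹ * z) * β z ∂ν ∂μ = 1 := by
    refine Eq.trans ?_ h2
    exact (lintegral_lintegral_swap (μ := ν) (ν := μ) (f := fun (t : H) z =>
      A.indicator (fun _ => (1 : ℝ≥0∞)) ((ι t)⁻¹ * z) * β z) hm2.aemeasurable).symm
  -- step 5: the inner integral
  have h5 : ∀ z, ∫⁻ t : H, A.indicator (fun _ => (1 : ℝ≥0∞)) ((ι t)⁻¹ * z) * β z ∂ν
      = (dcoset846 ι U x).indicator (fun z => ν (stab846 ι U x) * β z) z := by
    intro z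
    have hmz : Measurable fun t : H => A.indicator (fun _ => (1 : ℝ≥0∞)) ((ι t)⁻¹ * z) :=
      (measurable_const.indicator hAm).comp ((hιm.inv).mul measurable_const)
    rw [lintegral_mul_const _ hmz]
    have e : (fun t : H => A.indicator (fun _ => (1 : ℝ≥0∞)) ((ι t)⁻¹ * z))
        = {t : H | x⁻¹ * ((ι t)⁻¹ * z) ∈ U}.indicator (fun _ => (1 : ℝ≥0∞)) := by
      funext t
      simp only [Set.indicator, hA, Set.mem_ofPred_eq]
    have hmS : MeasurableSet {t : H | x⁻¹ * ((ι t)⁻¹ * z) ∈ U} := by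
      have hc : Continuous fun t : H => x⁻¹ * ((ι t)⁻¹ * z) :=
        continuous_const.mul ((hι.inv).mul continuous_const)
      exact (hU.preimage hc).measurableSet
    rw [e, lintegral_indicator hmS, setLIntegral_const, one_mul, measure_fibre846]
    by_cases hz : z ∈ dcoset846 ι U x
    · simp [Set.indicator_of_mem hz]
    · simp [Set.indicator_of_notMem hz]
  simp_rw [h5] at h4
  rw [lintegral_indicator (isOpen_dcoset846 ι U hU x).measurableSet] at h4
  rw [← lintegral_const_mul _ hβ]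
  exact h4

end Abstract

end Fermat.Agent.LT.T6.H846

end
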