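import Mathlib
import Fermat.Agent.LT.T6.Spec

/-!
# Row LT, tower T6, leaf T6.19 `OrbSumIntC` (helper846) -- algebra of `GL₂(k)`, OFF-MAIN

* `subU846 n` : the congruence subgroup `U(n)` as a subgroup;
* `inU_glAut846` : a valuation preserving automorphism preserves `U(n)`;
* `comm_of_comm_reg846` : the centraliser of a regular element of `M₂(F)` is commutative;
* `trace_quadratic846` : for commuting `t, u ∈ M₂(R)`, `X = tr(t u)` is a root of
  `X² - tr(t) tr(u) X + det(u)(tr(t)² - 2 det t) + det(t)(tr(u)² - 2 det u)`;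
* `inTwCentC_mul846` : the compact part of the twisted centraliser of `δ` (with `N δ` regular)
  is closed under products.
-/

set_option autoImplicit false
set_option linter.unusedSectionVars false
set_option linter.style.haveILetI false

open scoped Matrix
open WithZero

noncomputable section

namespace Fermat.Agent.LT.T6.H846

open Fermat.Agent.LT.T6

/-! ### Two polynomial identities -/

section Cert

theorem comm_cert846 {F : Type} [Field F] (p q r w a1 a2 a3 a4 b1 b2 b3 b4 : F)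
    (ha00 : a1 * p + a2 * r = p * a1 + q * a3) (ha01 : a1 * q + a2 * w = p * a2 + q * a4)
    (ha10 : a3 * p + a4 * r = r * a1 + w * a3)
    (hb00 : b1 * p + b2 * r = p * b1 + q * b3) (hb01 : b1 * q + b2 * w = p * b2 + q * b4)
    (hb10 : b3 * p + b4 * r = r * b1 + w * b3)
    (hD : (p + w) ^ 2 - 4 * (p * w - q * r) ≠ 0) :
    a1 * b1 + a2 * b3 = b1 * a1 + b2 * a3 ∧ a1 * b2 + a2 * b4 = b1 * a2 + b2 * a4 ∧
      a3 * b1 + a4 * b3 = b3 * a1 + b4 * a3 ∧ a3 * b2 + a4 * b4 = b3 * a2 + b4 * a4 := by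
  have e00 : ((p + w) ^ 2 - 4 * (p * w - q * r)) * ((a1 * b1 + a2 * b3) - (b1 * a1 + b2 * a3))
      = 0 := by
    linear_combination (4 * q * b3) * ha00 + (-p * b3 + w * b3) * ha01
      + (-p * b2 + w * b2) * ha10
      + (-p * a1 + p * a4 - 4 * q * a3 + w * a1 - w * a4) * hb00
  have e01 : ((p + w) ^ 2 - 4 * (p * w - q * r)) * ((a1 * b2 + a2 * b4) - (b1 * a2 + b2 * a4))
      = 0 := by
    linear_combination (4 * p * b2 - 4 * q * b1 + 4 * q * b4 - 4 * w * b2) * ha00
      + (p * b1 - p * b4 + 4 * r * b2 - w * b1 + w * b4) * ha01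
      + (-p * a1 + p * a4 - 4 * q * a3 + w * a1 - w * a4) * hb01
  have e10 : ((p + w) ^ 2 - 4 * (p * w - q * r)) * ((a3 * b1 + a4 * b3) - (b3 * a1 + b4 * a3))
      = 0 := by
    linear_combination (p * b1 - p * b4 + 4 * r * b2 - w * b1 + w * b4) * ha10
      + (4 * r * a1 - 4 * r * a4) * hb00 + (4 * r * a3) * hb01
      + (-p * a1 + p * a4 + w * a1 - w * a4) * hb10
  have e11 : ((p + w) ^ 2 - 4 * (p * w - q * r)) * ((a3 * b2 + a4 * b4) - (b3 * a2 + b4 * a4))
      = 0 := by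
    linear_combination (-4 * q * b3) * ha00 + (p * b3 - w * b3) * ha01
      + (p * b2 - w * b2) * ha10
      + (p * a1 - p * a4 + 4 * q * a3 - w * a1 + w * a4) * hb00
  refine ⟨?_, ?_, ?_, ?_⟩
  · exact sub_eq_zero.1 ((mul_eq_zero.1 e00).resolve_left hD)
  · exact sub_eq_zero.1 ((mul_eq_zero.1 e01).resolve_left hD)
  · exact sub_eq_zero.1 ((mul_eq_zero.1 e10).resolve_left hD)
  · exact sub_eq_zero.1 ((mul_eq_zero.1 e11).resolve_left hD)

/-- The centraliser of a regular element of `M₂(F)` is commutative. -/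
theorem comm_of_comm_reg846 {F : Type} [Field F] (γ a b : Matrix (Fin 2) (Fin 2) F)
    (hγ : γ.trace ^ 2 - 4 * γ.det ≠ 0) (ha : a * γ = γ * a) (hb : b * γ = γ * b) :
    a * b = b * a := by
  have ha00 := congrFun (congrFun ha 0) 0
  have ha01 := congrFun (congrFun ha 0) 1
  have ha10 := congrFun (congrFun ha 1) 0
  have hb00 := congrFun (congrFun hb 0) 0
  have hb01 := congrFun (congrFun hb 0) 1
  have hb10 := congrFun (congrFun hb 1) 0
  simp only [Matrix.mul_apply, Fin.sum_univ_two] at ha00 ha01 ha10 hb00 hb01 hb10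
  rw [Matrix.trace_fin_two, Matrix.det_fin_two] at hγ
  obtain ⟨h1, h2, h3, h4⟩ := comm_cert846 (γ 0 0) (γ 0 1) (γ 1 0) (γ 1 1)
    (a 0 0) (a 0 1) (a 1 0) (a 1 1) (b 0 0) (b 0 1) (b 1 0) (b 1 1)
    ha00 ha01 ha10 hb00 hb01 hb10 hγ
  rw [Matrix.eta_fin_two (a * b), Matrix.eta_fin_two (b * a)]
  simp only [Matrix.mul_apply, Fin.sum_univ_two]
  rw [h1, h2, h3, h4]

theorem trace_cert846 {R : Type} [CommRing R] (t1 t2 t3 t4 u1 u2 u3 u4 : R)
    (h00 : t1 * u1 + t2 * u3 = u1 * t1 + u2 * t3)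
    (h01 : t1 * u2 + t2 * u4 = u1 * t2 + u2 * t4) :
    (t1 * u1 + t2 * u3 + (t3 * u2 + t4 * u4)) ^ 2
      - (t1 + t4) * (u1 + u4) * (t1 * u1 + t2 * u3 + (t3 * u2 + t4 * u4))
      + ((u1 * u4 - u2 * u3) * ((t1 + t4) ^ 2 - 2 * (t1 * t4 - t2 * t3))
        + (t1 * t4 - t2 * t3) * ((u1 + u4) ^ 2 - 2 * (u1 * u4 - u2 * u3))) = 0 := by
  linear_combination (t2 * u3 - t3 * u2) * h00
    + (-t1 * u3 + t3 * u1 - t3 * u4 + t4 * u3) * h01

/-- For commuting `2 × 2` matrices, `tr (t u)` is a root of a monic quadratic polynomial whose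
coefficients are polynomials in the traces and determinants of `t` and `u`. -/
theorem trace_quadratic846 {R : Type} [CommRing R] (t u : Matrix (Fin 2) (Fin 2) R)
    (h : t * u = u * t) :
    (t * u).trace ^ 2 - t.trace * u.trace * (t * u).trace
      + (u.det * (t.trace ^ 2 - 2 * t.det) + t.det * (u.trace ^ 2 - 2 * u.det)) = 0 := by
  have h00 := congrFun (congrFun h 0) 0
  have h01 := congrFun (congrFun h 0) 1
  simp only [Matrix.mul_apply, Fin.sum_univ_two] at h00 h01
  have := trace_cert846 (t 0 0) (t 0 1) (t 1 0) (t 1 1) (u 0 0) (u 0 1) (u 1 0) (u 1 1) h00 h01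
  simp only [Matrix.trace_fin_two, Matrix.det_fin_two, Matrix.mul_apply, Fin.sum_univ_two]
  exact this

end Cert

/-! ### Valuations of entries -/

section Ent

variable {k : Type} [Field k] [Valued k Γ₀]

/-- All entries have valuation `≤ r`. -/
def EntLe846 (r : Γ₀) (A : Matrix (Fin 2) (Fin 2) k) : Prop := ∀ i j, Valued.v (A i j) ≤ r

theorem EntLe846.add {r : Γ₀} {A B : Matrix (Fin 2) (Fin 2) k} (hA : EntLe846 r A)
    (hB : EntLe846 r B) : EntLe846 r (A + B) := fun i j => by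
  rw [Matrix.add_apply]
  exact Valuation.map_add_le _ (hA i j) (hB i j)

theorem EntLe846.mul {r r' : Γ₀} {A B : Matrix (Fin 2) (Fin 2) k} (hA : EntLe846 r A)
    (hB : EntLe846 r' B) : EntLe846 (r * r') (A * B) := fun i j => by
  rw [Matrix.mul_apply]
  refine Valuation.map_sum_le _ (fun l _ => ?_)
  rw [map_mul]
  exact mul_le_mul' (hA i l) (hB l j)

theorem EntLe846.mono {r r' : Γ₀} (h : r ≤ r') {A : Matrix (Fin 2) (Fin 2) k}
    (hA : EntLe846 r A) : EntLe846 r' A := fun i j => (hA i j).trans h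

theorem entLe_one846 : EntLe846 (1 : Γ₀) (1 : Matrix (Fin 2) (Fin 2) k) := fun i j => by
  rw [Matrix.one_apply]
  split_ifs
  · simp
  · simp

theorem exp_neg_le_one846 (n : ℕ) : exp (-(n : ℤ)) ≤ (1 : Γ₀) := by
  rw [← exp_zero, exp_le_exp]
  omega

theorem inU_iff846 (n : ℕ) (g : GL (Fin 2) k) :
    InU n g ↔ EntLe846 (exp (-(n : ℤ))) ((g : Matrix (Fin 2) (Fin 2) k) - 1) ∧
      EntLe846 (exp (-(n : ℤ))) (((g⁻¹ : GL (Fin 2) k) : Matrix (Fin 2) (Fin 2) k) - 1) := by
  constructor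
  · intro h
    exact ⟨fun i j => (h i j).1, fun i j => (h i j).2⟩
  · intro h i j
    exact ⟨h.1 i j, h.2 i j⟩

theorem entLe_sub_one_mul846 (n : ℕ) (A B : Matrix (Fin 2) (Fin 2) k)
    (hA : EntLe846 (exp (-(n : ℤ))) (A - 1)) (hB : EntLe846 (exp (-(n : ℤ))) (B - 1)) :
    EntLe846 (exp (-(n : ℤ))) (A * B - 1) := by
  have e : A * B - 1 = (A - 1) * (B - 1) + (A - 1) + (B - 1) := by noncomm_ring
  rw [e]
  refine ((EntLe846.mono ?_ (hA.mul hB)).add hA).add hB
  calc exp (-(n : ℤ)) * exp (-(n : ℤ)) ≤ exp (-(n : ℤ)) * 1 := by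
        gcongr
        exact exp_neg_le_one846 n
    _ = exp (-(n : ℤ)) := mul_one _

theorem inU_one846 (n : ℕ) : InU n (1 : GL (Fin 2) k) := by
  intro i j
  simp

theorem inU_mul846 (n : ℕ) (g h : GL (Fin 2) k) (hg : InU n g) (hh : InU n h) :
    InU n (g * h) := by
  rw [inU_iff846] at hg hh ⊢
  refine ⟨?_, ?_⟩
  · rw [Units.val_mul]
    exact entLe_sub_one_mul846 n _ _ hg.1 hh.1
  · rw [mul_inv_rev, Units.val_mul]
    exact entLe_sub_one_mul846 n _ _ hh.2 hg.2

theorem inU_inv846 (n : ℕ) (g : GL (Fin 2) k) (hg : InU n g) : InU n g⁻¹ := by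
  rw [inU_iff846] at hg ⊢
  refine ⟨hg.2, ?_⟩
  rw [inv_inv]
  exact hg.1

/-- The congruence subgroup `U(n)`. -/
def subU846 (k : Type) [Field k] [Valued k Γ₀] (n : ℕ) : Subgroup (GL (Fin 2) k) where
  carrier := {g | InU n g}
  one_mem' := inU_one846 n
  mul_mem' := fun {a b} ha hb => inU_mul846 n a b ha hb
  inv_mem' := fun {a} ha => inU_inv846 n a ha

theorem mem_subU846 (n : ℕ) (g : GL (Fin 2) k) : g ∈ subU846 k n ↔ InU n g := Iff.rfl

/-- the entries of an element of `U(n)` are integral -/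
theorem entLe_of_inU846 (n : ℕ) (g : GL (Fin 2) k) (hg : InU n g) :
    EntLe846 (1 : Γ₀) (g : Matrix (Fin 2) (Fin 2) k) := by
  have h := ((inU_iff846 n g).1 hg).1
  have e : (g : Matrix (Fin 2) (Fin 2) k) = ((g : Matrix (Fin 2) (Fin 2) k) - 1) + 1 := by
    simp
  rw [e]
  exact (EntLe846.mono (exp_neg_le_one846 n) h).add entLe_one846

theorem trace_le_of_entLe846 (A : Matrix (Fin 2) (Fin 2) k) (hA : EntLe846 (1 : Γ₀) A) :
    Valued.v A.trace ≤ 1 := by
  rw [Matrix.trace_fin_two]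
  exact Valuation.map_add_le _ (hA 0 0) (hA 1 1)

theorem det_le_of_entLe846 (A : Matrix (Fin 2) (Fin 2) k) (hA : EntLe846 (1 : Γ₀) A) :
    Valued.v A.det ≤ 1 := by
  rw [Matrix.det_fin_two]
  refine Valuation.map_sub_le _ ?_ ?_
  · rw [map_mul]
    exact mul_le_one' (hA 0 0) (hA 1 1)
  · rw [map_mul]
    exact mul_le_one' (hA 0 1) (hA 1 0)

theorem det_eq_one_of_inU846 (n : ℕ) (g : GL (Fin 2) k) (hg : InU n g) :
    Valued.v (g : Matrix (Fin 2) (Fin 2) k).det = 1 := by
  have h1 := det_le_of_entLe846 _ (entLe_of_inU846 n g hg)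
  have h2 := det_le_of_entLe846 _ (entLe_of_inU846 n g⁻¹ (inU_inv846 n g hg))
  have h3 : (g : Matrix (Fin 2) (Fin 2) k).det
      * ((g⁻¹ : GL (Fin 2) k) : Matrix (Fin 2) (Fin 2) k).det = 1 := by
    rw [← Matrix.det_mul, ← Units.val_mul, mul_inv_cancel]
    simp
  have h4 : Valued.v (g : Matrix (Fin 2) (Fin 2) k).det
      * Valued.v ((g⁻¹ : GL (Fin 2) k) : Matrix (Fin 2) (Fin 2) k).det = 1 := by
    rw [← map_mul, h3, map_one]
  refine le_antisymm h1 ?_
  calc (1 : Γ₀) = Valued.v (g : Matrix (Fin 2) (Fin 2) k).det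
        * Valued.v ((g⁻¹ : GL (Fin 2) k) : Matrix (Fin 2) (Fin 2) k).det := h4.symm
    _ ≤ Valued.v (g : Matrix (Fin 2) (Fin 2) k).det * 1 := by gcongr
    _ = _ := mul_one _

/-- a root of a monic quadratic polynomial with integral coefficients is integral -/
theorem le_one_of_quadratic846 (X a b : k) (ha : Valued.v a ≤ 1) (hb : Valued.v b ≤ 1)
    (h : X ^ 2 - a * X + b = 0) : Valued.v X ≤ 1 := by
  by_contra hX
  rw [not_le] at hX
  have e : X ^ 2 = a * X - b := by linear_combination h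
  have h1 : Valued.v (X ^ 2) = Valued.v X * Valued.v X := by rw [pow_two, map_mul]
  have hpos : (0 : Γ₀) < Valued.v X := lt_trans zero_lt_one hX
  have h2 : Valued.v (a * X - b) ≤ Valued.v X := by
    refine Valuation.map_sub_le _ ?_ (hb.trans hX.le)
    rw [map_mul]
    calc Valued.v a * Valued.v X ≤ 1 * Valued.v X := by gcongr
      _ = Valued.v X := one_mul _
  have h3 : Valued.v X < Valued.v X * Valued.v X := by
    calc Valued.v X = Valued.v X * 1 := (mul_one _).symm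
      _ < Valued.v X * Valued.v X := by
          exact mul_lt_mul_of_pos_left hX hpos
  rw [← h1, e] at h3
  exact absurd h2 (not_le.2 h3)

end Ent

/-! ### The automorphism -/

section Aut

variable {k : Type} [Field k] [Valued k Γ₀]

theorem glAut_apply846 (s : k ≃+* k) (g : GL (Fin 2) k) (i j : Fin 2) :
    (glAut s g : Matrix (Fin 2) (Fin 2) k) i j = s ((g : Matrix (Fin 2) (Fin 2) k) i j) :=
  Matrix.GeneralLinearGroup.map_apply _ i j g

theorem glAut_mul846 (s s' : k ≃+* k) (g : GL (Fin 2) k) :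
    glAut (s * s') g = glAut s (glAut s' g) := by
  apply Units.ext
  ext i j
  rw [glAut_apply846, glAut_apply846, glAut_apply846]
  rfl

theorem glAut_one846 (g : GL (Fin 2) k) : glAut (1 : k ≃+* k) g = g := by
  apply Units.ext
  ext i j
  rw [glAut_apply846]
  rfl

theorem glAut_eq_self846 (s : k ≃+* k) (hs : ∀ y : k, s y = y) (g : GL (Fin 2) k) :
    glAut s g = g := by
  apply Units.ext
  ext i j
  rw [glAut_apply846, hs]

theorem inU_glAut846 (s : k ≃+* k) (hs : ∀ y : k, Valued.v (s y) = Valued.v y) (n : ℕ)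
    (u : GL (Fin 2) k) (hu : InU n u) : InU n (glAut s u) := by
  have key : ∀ (g : GL (Fin 2) k) (i j : Fin 2),
      Valued.v ((glAut s g : Matrix (Fin 2) (Fin 2) k) i j - (1 : Matrix (Fin 2) (Fin 2) k) i j)
        = Valued.v ((g : Matrix (Fin 2) (Fin 2) k) i j - (1 : Matrix (Fin 2) (Fin 2) k) i j) := by
    intro g i j
    have h1 : (1 : Matrix (Fin 2) (Fin 2) k) i j = s ((1 : Matrix (Fin 2) (Fin 2) k) i j) := by
      rw [Matrix.one_apply]
      split_ifs <;> simp
    rw [glAut_apply846]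
    conv_lhs => rw [h1]
    rw [← map_sub, hs]
  intro i j
  refine ⟨?_, ?_⟩
  · rw [key]
    exact (hu i j).1
  · have : (glAut s u)⁻¹ = glAut s u⁻¹ := (map_inv (glAut s) u).symm
    rw [this, key]
    exact (hu i j).2

/-- An element of the twisted centraliser of `δ` commutes with the norms of `δ`. -/
theorem twCent_conj_pow846 (s : k ≃+* k) (δ t : GL (Fin 2) k)
    (ht : t⁻¹ * δ * glAut s t = δ) (m : ℕ) :
    glAut (s ^ m) t = (twNorm s m δ)⁻¹ * t * twNorm s m δ := by
  have hst : glAut s t = δ⁻¹ * t * δ := by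
    have : glAut s t = δ⁻¹ * t * (t⁻¹ * δ * glAut s t) := by group
    rw [this, ht]
  induction m with
  | zero =>
    rw [pow_zero, glAut_one846]
    simp [twNorm, twN]
  | succ m ih =>
    rw [pow_succ', glAut_mul846, ih]
    have e : twNorm s (m + 1) δ = δ * glAut s (twNorm s m δ) := rfl
    rw [e, map_mul, map_mul, map_inv, hst]
    group

theorem twCent_comm_norm846 (s : k ≃+* k) (l : ℕ) (hl : ∀ y : k, (s ^ l) y = y)
    (δ t : GL (Fin 2) k) (ht : t⁻¹ * δ * glAut s t = δ) :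
    t * twNorm s l δ = twNorm s l δ * t := by
  have h := twCent_conj_pow846 s δ t ht l
  rw [glAut_eq_self846 (s ^ l) hl] at h
  calc t * twNorm s l δ = twNorm s l δ * ((twNorm s l δ)⁻¹ * t * twNorm s l δ) := by group
    _ = twNorm s l δ * t := by rw [← h]

end Aut

/-! ### The compact part of the twisted centraliser -/

section Cent

variable {k : Type} [Field k] [Valued k Γ₀]

theorem inTwCentC_conj846 (s : k ≃+* k) (δ x t : GL (Fin 2) k) :
    InTwCentC s (x⁻¹ * δ * glAut s x) (x⁻¹ * t * x) ↔ InTwCentC s δ t := by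
  have e1 : (x⁻¹ * t * x)⁻¹ * (x⁻¹ * δ * glAut s x) * glAut s (x⁻¹ * t * x)
      = x⁻¹ * (t⁻¹ * δ * glAut s t) * glAut s x := by
    simp only [map_mul, map_inv, mul_inv_rev, inv_inv, mul_assoc]
    simp
  have e2 : ((x⁻¹ * t * x : GL (Fin 2) k) : Matrix (Fin 2) (Fin 2) k).trace
      = (t : Matrix (Fin 2) (Fin 2) k).trace := by
    rw [Units.val_mul, Units.val_mul, Matrix.trace_mul_cycle, ← Units.val_mul, mul_inv_cancel]
    simp
  have e3 : ((x⁻¹ * t * x : GL (Fin 2) k) : Matrix (Fin 2) (Fin 2) k).det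
      = (t : Matrix (Fin 2) (Fin 2) k).det := by
    rw [Units.val_mul, Units.val_mul, Matrix.det_mul, Matrix.det_mul, mul_comm, ← mul_assoc,
      ← Matrix.det_mul, ← Units.val_mul, mul_inv_cancel]
    simp
  unfold InTwCentC InTwCent
  rw [e1, e2, e3]
  constructor
  · rintro ⟨h1, h2, h3⟩
    refine ⟨?_, h2, h3⟩
    have := congrArg (fun g => x * g * (glAut s x)⁻¹) h1
    simpa [mul_assoc] using this
  · rintro ⟨h1, h2, h3⟩
    exact ⟨by rw [h1], h2, h3⟩

theorem inTwCentC_of_inU846 (s : k ≃+* k) (n : ℕ) (y u : GL (Fin 2) k) (hu : InU n u)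
    (h : u⁻¹ * y * glAut s u = y) : InTwCentC s y u :=
  ⟨h, trace_le_of_entLe846 _ (entLe_of_inU846 n u hu), det_eq_one_of_inU846 n u hu⟩

theorem inTwCentC_mul846 (s : k ≃+* k) (l : ℕ) (hl : ∀ y : k, (s ^ l) y = y)
    (δ : GL (Fin 2) k) (hreg : IsReg (twNorm s l δ)) (t t' : GL (Fin 2) k)
    (ht : InTwCentC s δ t) (ht' : InTwCentC s δ t') : InTwCentC s δ (t * t') := by
  obtain ⟨h1, h2, h3⟩ := ht
  obtain ⟨h1', h2', h3'⟩ := ht'
  have hc1 := twCent_comm_norm846 s l hl δ t h1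
  have hc2 := twCent_comm_norm846 s l hl δ t' h1'
  have hc1' : (t : Matrix (Fin 2) (Fin 2) k) * (twNorm s l δ : Matrix (Fin 2) (Fin 2) k)
      = (twNorm s l δ : Matrix (Fin 2) (Fin 2) k) * (t : Matrix (Fin 2) (Fin 2) k) := by
    rw [← Units.val_mul, hc1, Units.val_mul]
  have hc2' : (t' : Matrix (Fin 2) (Fin 2) k) * (twNorm s l δ : Matrix (Fin 2) (Fin 2) k)
      = (twNorm s l δ : Matrix (Fin 2) (Fin 2) k) * (t' : Matrix (Fin 2) (Fin 2) k) := by
    rw [← Units.val_mul, hc2, Units.val_mul]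
  have hD : (twNorm s l δ : Matrix (Fin 2) (Fin 2) k).trace ^ 2
      - 4 * (twNorm s l δ : Matrix (Fin 2) (Fin 2) k).det ≠ 0 := hreg.ne_zero
  have hcomm := comm_of_comm_reg846 _ _ _ hD hc1' hc2'
  have hquad := trace_quadratic846 _ _ hcomm
  refine ⟨?_, ?_, ?_⟩
  · change (t * t')⁻¹ * δ * glAut s (t * t') = δ
    calc (t * t')⁻¹ * δ * glAut s (t * t') = t'⁻¹ * (t⁻¹ * δ * glAut s t) * glAut s t' := by
          simp only [map_mul, mul_inv_rev, mul_assoc]
      _ = δ := by rw [h1, h1']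
  · rw [Units.val_mul]
    refine le_one_of_quadratic846 _ ((t : Matrix (Fin 2) (Fin 2) k).trace
      * (t' : Matrix (Fin 2) (Fin 2) k).trace)
      ((t' : Matrix (Fin 2) (Fin 2) k).det * ((t : Matrix (Fin 2) (Fin 2) k).trace ^ 2
          - 2 * (t : Matrix (Fin 2) (Fin 2) k).det)
        + (t : Matrix (Fin 2) (Fin 2) k).det * ((t' : Matrix (Fin 2) (Fin 2) k).trace ^ 2
          - 2 * (t' : Matrix (Fin 2) (Fin 2) k).det)) ?_ ?_ hquad
    · rw [map_mul]
      exact mul_le_one' h2 h2'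
    · have h2le : Valued.v (2 : k) ≤ 1 := by
        have : (2 : k) = 1 + 1 := by norm_num
        rw [this]
        exact Valuation.map_add_le _ (by simp) (by simp)
      have aux : ∀ (τ d : k), Valued.v τ ≤ 1 → Valued.v d = 1 →
          Valued.v (τ ^ 2 - 2 * d) ≤ 1 := by
        intro τ d hτ hd
        refine Valuation.map_sub_le _ ?_ ?_
        · rw [map_pow]
          exact pow_le_one' hτ 2
        · rw [map_mul, hd, mul_one]
          exact h2le
      refine Valuation.map_add_le _ ?_ ?_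
      · rw [map_mul, h3', one_mul]
        exact aux _ _ h2 h3
      · rw [map_mul, h3, one_mul]
        exact aux _ _ h2' h3'
  · rw [Units.val_mul, Matrix.det_mul, map_mul, h3, h3', one_mul]

end Cent

end Fermat.Agent.LT.T6.H846

end
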