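import Mathlib
import Fermat.Agent.LT.T6.Spec
import Fermat.Agent.LT.T6.H846.OrbAbs

/-!
# Row LT, tower T6, leaf T6.19 `OrbSumIntC` (helper846) -- the index, abstract form, OFF-MAIN

`cIndex846_mul_stab` : the number of cosets `t U`, `t` in the "compact part" `C y` of the twisted
centraliser of `y = x⁻¹ δ s(x)`, times the measure of the stabiliser of `x U`, is the measure of
the compact part of the twisted centraliser of `δ` (normalised to `1`).
-/

set_option autoImplicit false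
set_option linter.unusedSectionVars false

open MeasureTheory
open scoped ENNReal

noncomputable section

namespace Fermat.Agent.LT.T6.H846

open Fermat.Agent.LT.T6

/-- The hypotheses on the abstract frame: `ι : H → G` parametrises the twisted centraliser of
`δ`, `U` is a subgroup (with predicate `Up`), `C y` is the "compact part" of the twisted
centraliser of `y`. -/
structure Frame846 {G H : Type} [Group G] [Group H] (s : G →* G) (δ : G) (ι : H →* G)
    (U : Subgroup G) (Up : G → Prop) (C : G → G → Prop) : Prop where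
  up : ∀ g, Up g ↔ g ∈ U
  range : ∀ g : G, (∃ t : H, ι t = g) ↔ g⁻¹ * δ * s g = δ
  sU : ∀ u ∈ U, s u ∈ U
  c1 : ∀ y t, C y t → t⁻¹ * y * s t = y
  c2 : ∀ x t, C (x⁻¹ * δ * s x) (x⁻¹ * t * x) ↔ C δ t
  c3 : ∀ y u, u ∈ U → u⁻¹ * y * s u = y → C y u
  c4 : ∀ t t', C δ t → C δ t' → C δ (t * t')

section Alg

variable {G H : Type} [Group G] [Group H] {s : G →* G} {δ : G} {ι : H →* G}
  {U : Subgroup G} {Up : G → Prop} {C : G → G → Prop}

/-- twisted conjugation is an action -/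
theorem twconj_mul846 (s : G →* G) (δ a b : G) :
    (a * b)⁻¹ * δ * s (a * b) = b⁻¹ * (a⁻¹ * δ * s a) * s b := by
  simp [mul_assoc]

theorem Frame846.conj_mem (F : Frame846 s δ ι U Up C) (x t' : G)
    (h : t'⁻¹ * (x⁻¹ * δ * s x) * s t' = x⁻¹ * δ * s x) :
    ∃ t₀ : H, ι t₀ = x * t' * x⁻¹ := by
  rw [F.range]
  have e : (x * t' * x⁻¹)⁻¹ * δ * s (x * t' * x⁻¹)
      = x * (t'⁻¹ * (x⁻¹ * δ * s x) * s t') * (s x)⁻¹ := by
    simp only [map_mul, map_inv, mul_inv_rev, inv_inv, mul_assoc]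
  rw [e, h]
  group

theorem Frame846.conj_fix (F : Frame846 s δ ι U Up C) (x : G) (t : H) :
    (x⁻¹ * ι t * x)⁻¹ * (x⁻¹ * δ * s x) * s (x⁻¹ * ι t * x) = x⁻¹ * δ * s x := by
  have h := (F.range (ι t)).1 ⟨t, rfl⟩
  have e : (x⁻¹ * ι t * x)⁻¹ * (x⁻¹ * δ * s x) * s (x⁻¹ * ι t * x)
      = x⁻¹ * ((ι t)⁻¹ * δ * s (ι t)) * s x := by
    simp only [map_mul, map_inv, mul_inv_rev, inv_inv, mul_assoc]
    simp
  rw [e, h]

/-- The set of cosets counted by `cIndex`. -/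
def cosets846 (Up : G → Prop) (C : G → G → Prop) (y : G) : Set (Set G) :=
  {c : Set G | ∃ t : G, C y t ∧ c = {g : G | ∃ u : G, Up u ∧ g = t * u}}

theorem cIndex_eq846 (Up : G → Prop) (C : G → G → Prop) (y : G) :
    cIndex Up C y = Set.ncard (cosets846 Up C y) := rfl

/-- The part of `H` over the coset `c`. -/
def over846 (ι : H →* G) (x : G) (c : Set G) : Set H := {t | x⁻¹ * ι t * x ∈ c}

theorem Frame846.over_eq (F : Frame846 s δ ι U Up C) (x t' : G) (t₀ : H)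
    (h₀ : ι t₀ = x * t' * x⁻¹) :
    over846 ι x {g : G | ∃ u : G, Up u ∧ g = t' * u}
      = (fun t => t₀⁻¹ * t) ⁻¹' stab846 ι U x := by
  ext t
  change (∃ u : G, Up u ∧ x⁻¹ * ι t * x = t' * u) ↔ x⁻¹ * ι (t₀⁻¹ * t) * x ∈ U
  rw [map_mul, map_inv, h₀]
  have e : x⁻¹ * ((x * t' * x⁻¹)⁻¹ * ι t) * x = t'⁻¹ * (x⁻¹ * ι t * x) := by group
  rw [e]
  constructor
  · rintro ⟨u, hu, hx⟩
    rw [hx]
    have : t'⁻¹ * (t' * u) = u := by group
    rw [this]
    exact (F.up u).1 hu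
  · intro h
    exact ⟨_, (F.up _).2 h, by group⟩

theorem Frame846.over_subset (F : Frame846 s δ ι U Up C) (x : G) (c : Set G)
    (hc : c ∈ cosets846 Up C (x⁻¹ * δ * s x)) :
    over846 ι x c ⊆ {t : H | C δ (ι t)} := by
  obtain ⟨t', ht', rfl⟩ := hc
  intro t ht
  obtain ⟨u, hu, hx⟩ := ht
  have hu' : u ∈ U := (F.up u).1 hu
  -- `u = t'⁻¹ (x⁻¹ ι t x)` lies in the twisted centraliser of `y`
  have hfix1 := F.c1 _ _ ht'
  have hfix2 := F.conj_fix x t
  have hu_eq : u = t'⁻¹ * (x⁻¹ * ι t * x) := by rw [hx]; group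
  have hfixu : u⁻¹ * (x⁻¹ * δ * s x) * s u = x⁻¹ * δ * s x := by
    set y := x⁻¹ * δ * s x with hy
    set g := x⁻¹ * ι t * x with hg
    -- `t' u = g`, so `u⁻¹ y s u = u⁻¹ (t'⁻¹ y s t') s u = g⁻¹ y s g = y`
    have e1 : u⁻¹ * y * s u = u⁻¹ * (t'⁻¹ * y * s t') * s u := by rw [hfix1]
    have e2 : u⁻¹ * (t'⁻¹ * y * s t') * s u = (t' * u)⁻¹ * y * s (t' * u) := by
      simp only [map_mul, mul_inv_rev, mul_assoc]
    rw [e1, e2, ← hx, hfix2]
  have hCu := F.c3 _ u hu' hfixu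
  -- transport to `δ`, multiply there, transport back
  have e1 : x⁻¹ * (x * t' * x⁻¹) * x = t' := by group
  have e2 : x⁻¹ * (x * u * x⁻¹) * x = u := by group
  have hδ1 : C δ (x * t' * x⁻¹) := (F.c2 x _).1 (by rw [e1]; exact ht')
  have hδ2 : C δ (x * u * x⁻¹) := (F.c2 x _).1 (by rw [e2]; exact hCu)
  have hδ3 := F.c4 _ _ hδ1 hδ2
  have e3 : x * t' * x⁻¹ * (x * u * x⁻¹) = ι t := by
    have : ι t = x * (x⁻¹ * ι t * x) * x⁻¹ := by group
    rw [this, hx]
    group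
  rw [e3] at hδ3
  exact hδ3

theorem Frame846.subset_iUnion_over (F : Frame846 s δ ι U Up C) (x : G) :
    {t : H | C δ (ι t)} ⊆ ⋃ c ∈ cosets846 Up C (x⁻¹ * δ * s x), over846 ι x c := by
  intro t ht
  have hC : C (x⁻¹ * δ * s x) (x⁻¹ * ι t * x) := (F.c2 x (ι t)).2 ht
  simp only [Set.mem_iUnion]
  refine ⟨{g : G | ∃ u : G, Up u ∧ g = (x⁻¹ * ι t * x) * u}, ⟨_, hC, rfl⟩, ?_⟩
  exact ⟨1, (F.up 1).2 U.one_mem, by simp⟩

theorem Frame846.over_disjoint (F : Frame846 s δ ι U Up C) (x y : G) (c c' : Set G)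
    (hc : c ∈ cosets846 Up C y) (hc' : c' ∈ cosets846 Up C y) (hne : c ≠ c') :
    Disjoint (over846 ι x c) (over846 ι x c') := by
  rw [Set.disjoint_left]
  intro t ht ht'
  apply hne
  obtain ⟨t₁, -, rfl⟩ := hc
  obtain ⟨t₂, -, rfl⟩ := hc'
  obtain ⟨u₁, hu₁, h₁⟩ := ht
  obtain ⟨u₂, hu₂, h₂⟩ := ht'
  have hu₁' := (F.up _).1 hu₁
  have hu₂' := (F.up _).1 hu₂
  have e : t₂ = t₁ * (u₁ * u₂⁻¹) := by
    have : t₁ * u₁ = t₂ * u₂ := by rw [← h₁, ← h₂]
    calc t₂ = (t₂ * u₂) * u₂⁻¹ := by group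
      _ = (t₁ * u₁) * u₂⁻¹ := by rw [this]
      _ = t₁ * (u₁ * u₂⁻¹) := by group
  ext g
  constructor
  · rintro ⟨u, hu, rfl⟩
    refine ⟨(u₁ * u₂⁻¹)⁻¹ * u, (F.up _).2 (U.mul_mem (U.inv_mem (U.mul_mem hu₁' (U.inv_mem hu₂')))
      ((F.up _).1 hu)), ?_⟩
    rw [e]; group
  · rintro ⟨u, hu, rfl⟩
    refine ⟨(u₁ * u₂⁻¹) * u, (F.up _).2 (U.mul_mem (U.mul_mem hu₁' (U.inv_mem hu₂'))
      ((F.up _).1 hu)), ?_⟩
    rw [e]; group

end Alg

section Meas

variable {G H : Type} [Group G] [Group H] {s : G →* G} {δ : G} {ι : H →* G}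
  {U : Subgroup G} {Up : G → Prop} {C : G → G → Prop}
  [TopologicalSpace G] [IsTopologicalGroup G]
  [TopologicalSpace H] [IsTopologicalGroup H]
  [MeasurableSpace H] [BorelSpace H]
  (ν : Measure H) [ν.IsMulLeftInvariant] [ν.IsOpenPosMeasure]

theorem Frame846.measure_over (F : Frame846 s δ ι U Up C) (x : G) (c : Set G)
    (hc : c ∈ cosets846 Up C (x⁻¹ * δ * s x)) :
    ν (over846 ι x c) = ν (stab846 ι U x) := by
  obtain ⟨t', ht', rfl⟩ := hc
  obtain ⟨t₀, h₀⟩ := F.conj_mem x t' (F.c1 _ _ ht')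
  rw [F.over_eq x t' t₀ h₀, measure_preimage_mul]

theorem Frame846.measurable_over (F : Frame846 s δ ι U Up C) (hι : Continuous ι)
    (hU : IsOpen (U : Set G)) (x : G) (c : Set G)
    (hc : c ∈ cosets846 Up C (x⁻¹ * δ * s x)) :
    MeasurableSet (over846 ι x c) := by
  obtain ⟨t', ht', rfl⟩ := hc
  obtain ⟨t₀, h₀⟩ := F.conj_mem x t' (F.c1 _ _ ht')
  rw [F.over_eq x t' t₀ h₀]
  exact ((isOpen_stab846 ι hι U hU x).preimage (continuous_const.mul continuous_id)).measurableSet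

theorem stab_pos846 (hι : Continuous ι) (hU : IsOpen (U : Set G)) (x : G) :
    0 < ν (stab846 ι U x) := by
  refine (isOpen_stab846 ι hι U hU x).measure_pos ν ⟨1, ?_⟩
  change x⁻¹ * ι 1 * x ∈ U
  simp [U.one_mem]

/-- **The index.** -/
theorem Frame846.cIndex_mul_stab (F : Frame846 s δ ι U Up C) (hι : Continuous ι)
    (hU : IsOpen (U : Set G)) (hT : ν {t : H | C δ (ι t)} = 1) (x : G) :
    (cIndex Up C (x⁻¹ * δ * s x) : ℝ≥0∞) * ν (stab846 ι U x) = 1 := by
  classical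
  set y := x⁻¹ * δ * s x with hy
  set S := cosets846 Up C y with hS
  have hpos := stab_pos846 (U := U) ν hι hU x
  -- finite subfamilies
  have hfin : ∀ A : Finset (Set G), (∀ c ∈ A, c ∈ S) →
      ν (⋃ c ∈ A, over846 ι x c) = (A.card : ℝ≥0∞) * ν (stab846 ι U x) := by
    intro A hA
    rw [measure_biUnion_finset]
    · rw [Finset.sum_congr rfl (fun c hc => F.measure_over ν x c (hA c hc))]
      simp
    · intro c hc c' hc' hne
      exact F.over_disjoint x y c c' (hA c hc) (hA c' hc') hne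
    · intro c hc
      exact F.measurable_over hι hU x c (hA c hc)
  have hle : ∀ A : Finset (Set G), (∀ c ∈ A, c ∈ S) →
      (A.card : ℝ≥0∞) * ν (stab846 ι U x) ≤ 1 := by
    intro A hA
    rw [← hfin A hA, ← hT]
    refine measure_mono ?_
    intro t ht
    simp only [Set.mem_iUnion] at ht
    obtain ⟨c, hc, htc⟩ := ht
    exact F.over_subset x c (hA c hc) htc
  have hSfin : S.Finite := by
    by_contra hinf
    have hinf' : S.Infinite := hinf
    obtain ⟨n, hn⟩ := ENNReal.exists_nat_mul_gt hpos.ne' (ENNReal.one_ne_top)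
    obtain ⟨A, hAS, hAc⟩ := hinf'.exists_subset_card_eq n
    have := hle A (fun c hc => hAS hc)
    rw [hAc] at this
    exact absurd hn (not_lt.2 this)
  have hcard : cIndex Up C y = hSfin.toFinset.card := by
    rw [cIndex_eq846]
    exact Set.ncard_eq_toFinset_card S hSfin
  rw [hcard, ← hfin hSfin.toFinset (fun c hc => (hSfin.mem_toFinset).1 hc), ← hT]
  congr 1
  apply Set.Subset.antisymm
  · intro t ht
    simp only [Set.mem_iUnion] at ht
    obtain ⟨c, hc, htc⟩ := ht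
    exact F.over_subset x c ((hSfin.mem_toFinset).1 hc) htc
  · intro t ht
    have := F.subset_iUnion_over x ht
    simp only [Set.mem_iUnion] at this ⊢
    obtain ⟨c, hc, htc⟩ := this
    exact ⟨c, (hSfin.mem_toFinset).2 hc, htc⟩

end Meas

end Fermat.Agent.LT.T6.H846

end
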