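import Mathlib
import Fermat.Agent.LT.T6.Spec
import Fermat.Agent.LT.T6.H846.OrbAbs
import Fermat.Agent.LT.T6.H846.OrbIndex

/-!
# Row LT, tower T6, leaf T6.19 `OrbSumIntC` (helper846) -- abstract assembly, OFF-MAIN

`Frame846.orbSum_eq_integral` : in an abstract frame (second countable topological groups,
left invariant measures, open subgroup `U` of measure `1`, compact part of the twisted centraliser
of measure `1`), the orbit sum of the Spec is the cut-off integral.
-/

set_option autoImplicit false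
set_option linter.unusedSectionVars false
set_option linter.style.haveILetI false

open MeasureTheory
open scoped ENNReal

noncomputable section

namespace Fermat.Agent.LT.T6.H846

open Fermat.Agent.LT.T6

section Alg

variable {G H : Type} [Group G] [Group H] {s : G →* G} {δ : G} {ι : H →* G}
  {U : Subgroup G} {Up : G → Prop} {C : G → G → Prop}

theorem Frame846.twconj_dcoset (F : Frame846 s δ ι U Up C) (x : G) (t : H) (u : G) :
    (ι t * x * u)⁻¹ * δ * s (ι t * x * u) = u⁻¹ * (x⁻¹ * δ * s x) * s u := by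
  have ht := (F.range (ι t)).1 ⟨t, rfl⟩
  have e : (ι t * x * u)⁻¹ * δ * s (ι t * x * u)
      = u⁻¹ * (x⁻¹ * ((ι t)⁻¹ * δ * s (ι t)) * s x) * s u := by
    simp only [map_mul, mul_inv_rev, mul_assoc]
  rw [e, ht]

theorem Frame846.mem_dcoset_of_eq (F : Frame846 s δ ι U Up C) (x z u : G) (hu : u ∈ U)
    (h : z⁻¹ * δ * s z = u⁻¹ * (x⁻¹ * δ * s x) * s u) : z ∈ dcoset846 ι U x := by
  have e1 : z⁻¹ * δ * s z = (x * u)⁻¹ * δ * s (x * u) := by
    rw [h, twconj_mul846]
  have e2 : (z * (x * u)⁻¹)⁻¹ * δ * s (z * (x * u)⁻¹) = δ := by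
    have : (z * (x * u)⁻¹)⁻¹ * δ * s (z * (x * u)⁻¹)
        = (x * u) * (z⁻¹ * δ * s z) * (s (x * u))⁻¹ := by
      simp only [map_mul, map_inv, mul_inv_rev, inv_inv, mul_assoc]
    rw [this, e1]
    group
  obtain ⟨t, ht⟩ := (F.range _).2 e2
  exact ⟨t, u, hu, by rw [ht]; group⟩

end Alg

section Main

variable {G H : Type} [Group G] [Group H] {s : G →* G} {δ : G} {ι : H →* G}
  {U : Subgroup G} {Up : G → Prop} {C : G → G → Prop}
  [TopologicalSpace G] [IsTopologicalGroup G] [SecondCountableTopology G]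
  [MeasurableSpace G] [BorelSpace G]
  [TopologicalSpace H] [IsTopologicalGroup H] [SecondCountableTopology H]
  [MeasurableSpace H] [BorelSpace H]

theorem locallyFinite_G846 (U : Subgroup G) (hU : IsOpen (U : Set G))
    (μ : Measure G) [μ.IsMulLeftInvariant] (hμU : μ (U : Set G) = 1) :
    IsLocallyFiniteMeasure μ := by
  refine ⟨fun x => ⟨{z | x⁻¹ * z ∈ U}, (isOpen_leftCoset846 U hU x).mem_nhds ?_, ?_⟩⟩
  · change x⁻¹ * x ∈ U
    simp [U.one_mem]
  · have : {z | x⁻¹ * z ∈ U} = (fun z => x⁻¹ * z) ⁻¹' (U : Set G) := rfl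
    rw [this, measure_preimage_mul, hμU]
    exact ENNReal.one_lt_top

theorem Frame846.locallyFinite_H (F : Frame846 s δ ι U Up C) (hι : Continuous ι)
    (hU : IsOpen (U : Set G))
    (ν : Measure H) [ν.IsMulLeftInvariant] (hT : ν {t : H | C δ (ι t)} = 1) :
    IsLocallyFiniteMeasure ν := by
  have hW : ν (stab846 ι U 1) < ⊤ := by
    refine lt_of_le_of_lt (measure_mono ?_) (hT.le.trans_lt ENNReal.one_lt_top)
    intro t ht
    have ht' : ι t ∈ U := by
      have : (1 : G)⁻¹ * ι t * 1 ∈ U := ht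
      simpa using this
    exact F.c3 δ (ι t) ht' ((F.range (ι t)).1 ⟨t, rfl⟩)
  refine ⟨fun t₀ => ⟨(fun t => t₀⁻¹ * t) ⁻¹' stab846 ι U 1,
    ((isOpen_stab846 ι hι U hU 1).preimage (continuous_const.mul continuous_id)).mem_nhds ?_, ?_⟩⟩
  · change (1 : G)⁻¹ * ι (t₀⁻¹ * t₀) * 1 ∈ U
    simp [U.one_mem]
  · rw [measure_preimage_mul]
    exact hW

/-- **The abstract bridge.** -/
theorem Frame846.orbSum_eq_integral (F : Frame846 s δ ι U Up C) (hι : Continuous ι)
    (hU : IsOpen (U : Set G))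
    (μ : Measure G) [μ.IsMulLeftInvariant] (hμU : μ (U : Set G) = 1)
    (ν : Measure H) [ν.IsMulLeftInvariant] [ν.IsOpenPosMeasure]
    (hT : ν {t : H | C δ (ι t)} = 1)
    (φ : G → ℂ) (hφ : IsBiInv Up φ) (c : ℂ) (hc : IsOrbSumGen s Up C φ δ c)
    (β : G → ℝ) (hβc : Continuous β) (hβ0 : ∀ x, 0 ≤ β x)
    (hβ1 : ∀ x : G, ∫ t : H, β (ι t * x) ∂ν = 1) :
    ∫ x : G, φ (x⁻¹ * δ * s x) * (β x : ℂ) ∂μ = c := by
  classical
  haveI : IsLocallyFiniteMeasure μ := locallyFinite_G846 U hU μ hμU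
  haveI : IsLocallyFiniteMeasure ν := F.locallyFinite_H hι hU ν hT
  obtain ⟨R, hR1, hR2, hR3, hcsum⟩ := hc
  choose! X hXeq using hR1
  set D : G → Set G := fun y => dcoset846 ι U (X y) with hD
  have hDm : ∀ y, MeasurableSet (D y) := fun y => (isOpen_dcoset846 ι U hU _).measurableSet
  -- the three facts
  have hF1 : ∀ y ∈ R, ∀ z ∈ D y, φ (z⁻¹ * δ * s z) = φ y := by
    intro y hy z hz
    obtain ⟨t, u, hu, rfl⟩ := hz
    rw [F.twconj_dcoset, ← hXeq y hy]
    exact hφ u⁻¹ (s u) y ((F.up _).2 (U.inv_mem hu)) ((F.up _).2 (F.sU u hu))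
  have hF2 : ∀ z, φ (z⁻¹ * δ * s z) ≠ 0 → ∃ y ∈ R, z ∈ D y := by
    intro z hz
    obtain ⟨y', hy', u, hu, he⟩ := hR3 _ ⟨z, rfl⟩ hz
    refine ⟨y', hy', F.mem_dcoset_of_eq (X y') z u ((F.up u).1 hu) ?_⟩
    rw [he, ← hXeq y' hy']
  have hF3 : ∀ y ∈ R, ∀ y' ∈ R, ∀ z, z ∈ D y → z ∈ D y' → y = y' := by
    intro y hy y' hy' z hz hz'
    obtain ⟨t, u, hu, h1⟩ := hz
    obtain ⟨t', u', hu', h2⟩ := hz'
    have a1 : z⁻¹ * δ * s z = u⁻¹ * y * s u := by
      rw [h1, F.twconj_dcoset, ← hXeq y hy]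
    have a2 : z⁻¹ * δ * s z = u'⁻¹ * y' * s u' := by
      rw [h2, F.twconj_dcoset, ← hXeq y' hy']
    apply hR2 y hy y' hy'
    refine ⟨u * u'⁻¹, (F.up _).2 (U.mul_mem hu (U.inv_mem hu')), ?_⟩
    have e : y' = u' * (u'⁻¹ * y' * s u') * (s u')⁻¹ := by group
    rw [e, ← a2, a1]
    simp only [map_mul, map_inv, mul_inv_rev, inv_inv, mul_assoc]
  -- the cut-off as an `ℝ≥0∞`-valued function
  set βe : G → ℝ≥0∞ := fun z => ENNReal.ofReal (β z) with hβe
  have hβem : Measurable βe := ENNReal.measurable_ofReal.comp hβc.measurable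
  have hβe1 : ∀ z, ∫⁻ t : H, βe (ι t * z) ∂ν = 1 := by
    intro z
    have h := integral_eq_lintegral_of_nonneg_ae (μ := ν) (f := fun t : H => β (ι t * z))
      (Filter.Eventually.of_forall fun t => hβ0 _)
      (hβc.comp (hι.mul continuous_const)).aestronglyMeasurable
    rw [hβ1 z] at h
    exact (ENNReal.toReal_eq_one_iff _).1 h.symm
  -- the integral over a double coset
  have hL : ∀ y ∈ R, ∫⁻ z in D y, βe z ∂μ = (cIndex Up C y : ℝ≥0∞) := by
    intro y hy
    have h1 := lintegral_doubleCoset846 μ ν ι hι U hU hμU βe hβem hβe1 (X y)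
    have h2 := F.cIndex_mul_stab ν hι hU hT (X y)
    rw [← hXeq y hy] at h2
    have e1 := ENNReal.eq_inv_of_mul_eq_one_left h2
    have e2 := ENNReal.eq_inv_of_mul_eq_one_left (by rwa [mul_comm] at h1 :
      (∫⁻ z in D y, βe z ∂μ) * ν (stab846 ι U (X y)) = 1)
    rw [e1, e2]
  have hInt : ∀ y ∈ R, IntegrableOn β (D y) μ := by
    intro y hy
    refine ⟨hβc.aestronglyMeasurable, ?_⟩
    rw [hasFiniteIntegral_iff_ofReal (Filter.Eventually.of_forall fun z => hβ0 z)]
    have := hL y hy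
    simp only [hβe] at this
    rw [this]
    exact ENNReal.natCast_lt_top _
  have hVal : ∀ y ∈ R, ∫ z in D y, β z ∂μ = (cIndex Up C y : ℝ) := by
    intro y hy
    rw [integral_eq_lintegral_of_nonneg_ae (Filter.Eventually.of_forall fun z => hβ0 z)
      hβc.aestronglyMeasurable]
    have := hL y hy
    simp only [hβe] at this
    rw [this]
    simp
  -- the pointwise decomposition
  set g : G → G → ℂ := fun y z => φ y * (D y).indicator (fun z => (β z : ℂ)) z with hg
  have hpt : ∀ z, φ (z⁻¹ * δ * s z) * (β z : ℂ) = ∑ y ∈ R, g y z := by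
    intro z
    by_cases h : ∃ y ∈ R, z ∈ D y
    · obtain ⟨y₀, hy₀, hz₀⟩ := h
      rw [Finset.sum_eq_single y₀]
      · simp only [hg, Set.indicator_of_mem hz₀]
        rw [hF1 y₀ hy₀ z hz₀]
      · intro y hy hne
        have : z ∉ D y := fun hz => hne (hF3 y hy y₀ hy₀ z hz hz₀)
        simp only [hg, Set.indicator_of_notMem this, mul_zero]
      · intro h'
        exact absurd hy₀ h'
    · have hz0 : φ (z⁻¹ * δ * s z) = 0 := by
        by_contra hne
        exact h (hF2 z hne)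
      rw [hz0, zero_mul]
      symm
      apply Finset.sum_eq_zero
      intro y hy
      have : z ∉ D y := fun hz => h ⟨y, hy, hz⟩
      simp only [hg, Set.indicator_of_notMem this, mul_zero]
  have hgInt : ∀ y ∈ R, Integrable (g y) μ := by
    intro y hy
    refine Integrable.const_mul ?_ _
    rw [integrable_indicator_iff (hDm y)]
    exact (hInt y hy).ofReal
  have hgVal : ∀ y ∈ R, ∫ z, g y z ∂μ = φ y * (cIndex Up C y : ℂ) := by
    intro y hy
    simp only [hg]
    rw [integral_const_mul, integral_indicator (hDm y), integral_complex_ofReal, hVal y hy]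
    simp
  simp_rw [hpt]
  rw [integral_finsetSum R hgInt, Finset.sum_congr rfl hgVal, hcsum]

end Main

end Fermat.Agent.LT.T6.H846

end
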