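import Mathlib
import Fermat.Agent.LT.T6.Spec

/-!
# Row LT, tower T6, leaf T6.19 `OrbSumIntC` (helper846) -- topology of a local field, OFF-MAIN

From the structure `T6.IsLocalField k q` (only the uniformiser and the finite system of
representatives of the residue field are used): `k` is second countable, hence so is `GL₂(k)`;
the congruence subgroups `U(n)` are open.
-/

set_option autoImplicit false
set_option linter.unusedSectionVars false
set_option linter.style.haveILetI false

open scoped Matrix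
open WithZero

noncomputable section

namespace Fermat.Agent.LT.T6.H846

open Fermat.Agent.LT.T6

section Field

variable {k : Type} [Field k] [Valued k Γ₀]

theorem le_exp_neg_one_of_lt_one846 {x : Γ₀} (h : x < 1) : x ≤ exp (-1 : ℤ) := by
  have h1 : (1 : Γ₀) = exp (-1 : ℤ) * exp (1 : ℤ) := by
    rw [← exp_add]; simp
  rw [h1] at h
  exact (lt_mul_exp_iff_le exp_ne_zero).1 h

/-- The finite set of the truncated `ϖ`-adic expansions with digits in `T`. -/
def digits846 (T : Finset k) (ϖ : k) : ℕ → Finset k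
  | 0 => {0}
  | (N + 1) => by
      classical
      exact Finset.image₂ (fun t d => t + ϖ * d) T (digits846 T ϖ N)

theorem exists_digit846 (T : Finset k) (ϖ : k) (hϖ : Valued.v ϖ = exp (-1 : ℤ))
    (hT : ∀ z : k, Valued.v z ≤ 1 → ∃ x ∈ T, Valued.v (z - x) < 1) :
    ∀ (N : ℕ) (z : k), Valued.v z ≤ 1 →
      ∃ d ∈ digits846 T ϖ N, Valued.v (z - d) ≤ exp (-(N : ℤ)) := by
  classical
  intro N
  induction N with
  | zero =>
    intro z hz
    exact ⟨0, by simp [digits846], by simpa using hz⟩
  | succ N ih =>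
    intro z hz
    obtain ⟨t, ht, hzt⟩ := hT z hz
    have hϖ0 : ϖ ≠ 0 := by
      intro h0
      rw [h0, map_zero] at hϖ
      exact exp_ne_zero hϖ.symm
    have h1 : Valued.v ((z - t) / ϖ) ≤ 1 := by
      rw [map_div₀, hϖ]
      have := le_exp_neg_one_of_lt_one846 hzt
      rw [div_le_iff₀ (exp_pos), one_mul]
      exact this
    obtain ⟨d', hd', hzd'⟩ := ih ((z - t) / ϖ) h1
    refine ⟨t + ϖ * d', ?_, ?_⟩
    · simp only [digits846]
      exact Finset.mem_image₂.2 ⟨t, ht, d', hd', rfl⟩
    · have e : z - (t + ϖ * d') = ϖ * ((z - t) / ϖ - d') := by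
        field_simp
        ring
      rw [e, map_mul, hϖ]
      calc exp (-1 : ℤ) * Valued.v ((z - t) / ϖ - d')
          ≤ exp (-1 : ℤ) * exp (-(N : ℤ)) := by gcongr
        _ = exp (-((N + 1 : ℕ) : ℤ)) := by
            rw [← exp_add]
            congr 1
            push_cast
            ring

theorem isOpen_ball_le846 (a c : k) (hc : c ≠ 0) :
    IsOpen {x : k | Valued.v (x - a) ≤ Valued.v c} := by
  have h0 : (Valued.v : Valuation k Γ₀).restrict c ≠ 0 := by
    rw [Ne, Valuation.restrict_eq_zero_iff]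
    simpa using hc
  have h := Valued.isOpen_closedBall k (r := (Valued.v : Valuation k Γ₀).restrict c) h0
  have hc' : Continuous fun x : k => x - a := continuous_id.sub continuous_const
  have := h.preimage hc'
  convert this using 1
  ext x
  simp only [Set.mem_preimage]
  exact (Valuation.restrict_le_iff (v := (Valued.v : Valuation k Γ₀))).symm

theorem isOpen_ball_exp846 {q : ℕ} (hk : IsLocalField k q) (a : k) (n : ℕ) :
    IsOpen {x : k | Valued.v (x - a) ≤ exp (-(n : ℤ))} := by
  obtain ⟨ϖ, hϖ⟩ := hk.unif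
  have hϖ0 : ϖ ≠ 0 := by
    intro h0
    rw [h0, map_zero] at hϖ
    exact exp_ne_zero hϖ.symm
  have h := isOpen_ball_le846 a (ϖ ^ n) (pow_ne_zero n hϖ0)
  have e : Valued.v (ϖ ^ n) = exp (-(n : ℤ)) := by
    rw [map_pow, hϖ, ← exp_nsmul]
    congr 1
    simp
  rwa [e] at h

theorem separableSpace846 {q : ℕ} (hk : IsLocalField k q) : TopologicalSpace.SeparableSpace k := by
  classical
  obtain ⟨ϖ, hϖ⟩ := hk.unif
  obtain ⟨T, -, -, -, hT⟩ := hk.residue
  have hϖ0 : ϖ ≠ 0 := by
    intro h0
    rw [h0, map_zero] at hϖ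
    exact exp_ne_zero hϖ.symm
  refine ⟨⟨⋃ (M : ℕ) (N : ℕ), (fun d => (ϖ⁻¹) ^ M * d) '' (digits846 T ϖ N : Set k), ?_, ?_⟩⟩
  · refine Set.countable_iUnion fun M => Set.countable_iUnion fun N => ?_
    exact ((digits846 T ϖ N).finite_toSet.image _).countable
  · intro x
    rw [mem_closure_iff_nhds]
    intro t ht
    rw [Valued.mem_nhds] at ht
    obtain ⟨γ, hγ⟩ := ht
    set g : Γ₀ := MonoidWithZeroHom.ValueGroup₀.embedding γ.1 with hg
    have hg0 : g ≠ 0 := MonoidWithZeroHom.ValueGroup₀.embedding_unit_ne_zero γ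
    obtain ⟨K, hK⟩ := exists_exp_neg_natCast_lt hg0
    set M : ℕ := (log (Valued.v x)).toNat with hM
    have hxM : Valued.v x ≤ exp (M : ℤ) := by
      refine le_trans le_exp_log ?_
      rw [exp_le_exp]
      exact Int.self_le_toNat _
    have hz : Valued.v (ϖ ^ M * x) ≤ 1 := by
      rw [map_mul, map_pow, hϖ]
      calc exp (-1 : ℤ) ^ M * Valued.v x ≤ exp (-1 : ℤ) ^ M * exp (M : ℤ) := by gcongr
        _ = 1 := by
            rw [← exp_nsmul, ← exp_add]
            simp
    obtain ⟨d', hd', hzd'⟩ := exists_digit846 T ϖ hϖ hT (K + M) (ϖ ^ M * x) hz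
    refine ⟨(ϖ⁻¹) ^ M * d', hγ ?_, ?_⟩
    · change (Valued.v : Valuation k Γ₀).restrict ((ϖ⁻¹) ^ M * d' - x) < γ.1
      rw [Valuation.restrict_lt_iff_lt_embedding]
      refine lt_of_le_of_lt ?_ hK
      have e : (ϖ⁻¹) ^ M * d' - x = (ϖ⁻¹) ^ M * (d' - ϖ ^ M * x) := by
        have : ϖ ^ M ≠ 0 := pow_ne_zero M hϖ0
        rw [mul_sub, ← mul_assoc, inv_pow, inv_mul_cancel₀ this, one_mul]
      rw [e, map_mul, map_pow, map_inv₀, hϖ, Valuation.map_sub_swap]
      calc (exp (-1 : ℤ))⁻¹ ^ M * Valued.v (ϖ ^ M * x - d')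
          ≤ (exp (-1 : ℤ))⁻¹ ^ M * exp (-((K + M : ℕ) : ℤ)) := by gcongr
        _ = exp (-(K : ℤ)) := by
            rw [← exp_neg, ← exp_nsmul, ← exp_add]
            congr 1
            push_cast
            simp
    · simp only [Set.mem_iUnion]
      exact ⟨M, K + M, d', hd', rfl⟩

theorem countablyGenerated846 : (uniformity k).IsCountablyGenerated := by
  haveI : Countable (MonoidWithZeroHom.ValueGroup₀
      (MonoidWithZeroHom.ofClass (Valued.v : Valuation k Γ₀)))ˣ := by
    have hinj : Function.Injective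
        (fun γ : (MonoidWithZeroHom.ValueGroup₀
          (MonoidWithZeroHom.ofClass (Valued.v : Valuation k Γ₀)))ˣ =>
          MonoidWithZeroHom.ValueGroup₀.embedding γ.1) := by
      intro a b hab
      exact Units.ext (MonoidWithZeroHom.ValueGroup₀.embedding_injective hab)
    haveI : Countable Γ₀ := inferInstanceAs (Countable (Option (Multiplicative ℤ)))
    exact hinj.countable
  exact (Valued.hasBasis_uniformity k Γ₀).isCountablyGenerated

theorem secondCountable846 {q : ℕ} (hk : IsLocalField k q) : SecondCountableTopology k := by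
  haveI := separableSpace846 hk
  haveI := countablyGenerated846 (k := k)
  exact UniformSpace.secondCountable_of_separable k

end Field

section GLTop

variable {k : Type} [Field k] [Valued k Γ₀]

theorem secondCountable_GL846 {q : ℕ} (hk : IsLocalField k q) :
    SecondCountableTopology (GL (Fin 2) k) := by
  haveI := secondCountable846 hk
  haveI : SecondCountableTopology (Matrix (Fin 2) (Fin 2) k) :=
    inferInstanceAs (SecondCountableTopology (Fin 2 → Fin 2 → k))
  haveI : SecondCountableTopology (Matrix (Fin 2) (Fin 2) k)ᵐᵒᵖ :=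
    MulOpposite.opHomeomorph.symm.isInducing.secondCountableTopology
  exact (Units.isInducing_embedProduct (M := Matrix (Fin 2) (Fin 2) k)).secondCountableTopology

theorem continuous_entry846 (i j : Fin 2) :
    Continuous fun g : GL (Fin 2) k => (g : Matrix (Fin 2) (Fin 2) k) i j :=
  (Units.continuous_val (M := Matrix (Fin 2) (Fin 2) k)).matrix_elem i j

theorem continuous_inv_entry846 (i j : Fin 2) :
    Continuous fun g : GL (Fin 2) k => ((g⁻¹ : GL (Fin 2) k) : Matrix (Fin 2) (Fin 2) k) i j :=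
  (continuous_entry846 i j).comp continuous_inv

theorem isOpen_InU846 {q : ℕ} (hk : IsLocalField k q) (n : ℕ) :
    IsOpen {g : GL (Fin 2) k | InU n g} := by
  have e : {g : GL (Fin 2) k | InU n g}
      = ⋂ (i : Fin 2), ⋂ (j : Fin 2),
        ((fun g : GL (Fin 2) k => (g : Matrix (Fin 2) (Fin 2) k) i j) ⁻¹'
            {x : k | Valued.v (x - (1 : Matrix (Fin 2) (Fin 2) k) i j) ≤ exp (-(n : ℤ))}) ∩
          ((fun g : GL (Fin 2) k => ((g⁻¹ : GL (Fin 2) k) : Matrix (Fin 2) (Fin 2) k) i j) ⁻¹'
            {x : k | Valued.v (x - (1 : Matrix (Fin 2) (Fin 2) k) i j) ≤ exp (-(n : ℤ))}) := by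
    ext g
    simp only [Set.mem_iInter, Set.mem_inter_iff, Set.mem_preimage]
    rfl
  rw [e]
  refine isOpen_iInter_of_finite fun i => isOpen_iInter_of_finite fun j => IsOpen.inter ?_ ?_
  · exact (isOpen_ball_exp846 hk _ n).preimage (continuous_entry846 i j)
  · exact (isOpen_ball_exp846 hk _ n).preimage (continuous_inv_entry846 i j)

end GLTop

end Fermat.Agent.LT.T6.H846

end
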