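import Mathlib
import Fermat.Agent.LT.T6.Spec
import Fermat.Agent.LT.T6.H846.OrbAbs
import Fermat.Agent.LT.T6.H846.OrbIndex
import Fermat.Agent.LT.T6.H846.OrbAssembly
import Fermat.Agent.LT.T6.H846.OrbTop
import Fermat.Agent.LT.T6.H846.OrbAlg

/-!
# Row LT, tower T6, leaf T6.19 `OrbSumIntC` (helper846), OFF-MAIN

`orbSumIntC846 : Fermat.Agent.LT.T6.OrbSumIntC` VERBATIM (Spec v2 of helper22, sha256 be86e12a):
the orbit sum of the Spec IS the cut-off orbital integral.

Proof: `GL₂(k)` is second countable (`OrbTop`), `U(n)` is an open subgroup of measure `1`, the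
compact part of the twisted centraliser is closed under products because the twisted centraliser
commutes with the regular element `N δ` (`OrbAlg`); the abstract bridge (`OrbAbs`, `OrbIndex`,
`OrbAssembly`: Tonelli twice + counting of cosets) does the rest.  Completeness of `k` and
`char k = 0` are not used.
-/

set_option autoImplicit false
set_option linter.style.haveILetI false

open MeasureTheory
open scoped Matrix

noncomputable section

namespace Fermat.Agent.LT.T6.H846

open Fermat.Agent.LT.T6

/-- The frame of the abstract bridge, for `GL₂(k)`. -/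
theorem frame846 {k : Type} [Field k] [Valued k Γ₀] (l : ℕ) (s : k ≃+* k)
    (hs : ∀ y : k, Valued.v (s y) = Valued.v y) (hl : ∀ y : k, (s ^ l) y = y) (n : ℕ)
    (δ : GL (Fin 2) k) (hreg : IsReg (twNorm s l δ)) :
    Frame846 (glAut s) δ (twCentSub (glAut s) δ).subtype (subU846 k n) (InU n)
      (InTwCentC s) where
  up := fun _ => Iff.rfl
  range := fun g => ⟨fun ⟨t, ht⟩ => ht ▸ t.2, fun h => ⟨⟨g, h⟩, rfl⟩⟩
  sU := fun u hu => inU_glAut846 s hs n u hu
  c1 := fun _ _ h => h.1
  c2 := fun x t => inTwCentC_conj846 s δ x t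
  c3 := fun y u hu h => inTwCentC_of_inU846 s n y u hu h
  c4 := fun t t' => inTwCentC_mul846 s l hl δ hreg t t'

/-- **T6.19 (bridge): the orbit sum is the cut-off orbital integral.** -/
theorem orbSumIntC846 : OrbSumIntC := by
  intro k _ _ q l s hk hs _ hl n φ hφ _ δ c hreg hc μ hμ hμU μT hμT hμTc β hβc hβ0 hβ1
  haveI := secondCountable_GL846 hk
  letI : MeasurableSpace (GL (Fin 2) k) := borel _
  haveI : BorelSpace (GL (Fin 2) k) := ⟨rfl⟩
  haveI : SecondCountableTopology (twCentSub (glAut s) δ) :=
    (Topology.IsInducing.subtypeVal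
      (t := ((twCentSub (glAut s) δ : Subgroup (GL (Fin 2) k)) : Set (GL (Fin 2) k)))
      ).secondCountableTopology
  letI : MeasurableSpace (twCentSub (glAut s) δ) := borel _
  haveI : BorelSpace (twCentSub (glAut s) δ) := ⟨rfl⟩
  haveI := hμ
  haveI := hμT
  have F := frame846 l s hs hl n δ hreg
  have hT : μT {t : twCentSub (glAut s) δ |
      InTwCentC s δ ((twCentSub (glAut s) δ).subtype t)} = 1 := by
    rw [← hμTc]
    congr 1
    ext t
    exact ⟨fun h => h.2, fun h => ⟨t.2, h⟩⟩
  exact F.orbSum_eq_integral continuous_subtype_val (isOpen_InU846 hk n) μ hμU μT hT φ hφ c hc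
    β hβc hβ0 hβ1

example : Fermat.Agent.LT.T6.OrbSumIntC := orbSumIntC846

end Fermat.Agent.LT.T6.H846

end
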