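import Mathlib
import Fermat.Agent.LT.T6.Spec
import Fermat.Agent.LT.T6.H783.DescSpec
import Fermat.Agent.LT.T6.H846.OrbAlg

/-!
# Row LT, tower T6, leaf T6.18g2-D0 `DecompGlueC783` (helper846) -- soft part, OFF-MAIN

Algebra of orbit sums (scaling, zero, finite sums from `AddC783`), the trivial local extension
`k / k` (untwisted orbit sums exist by `OrbSumExC`), pruning of a finite set by an equivalence
relation, `h ^ l` regular `⇒ h` regular.
-/

set_option autoImplicit false
set_option linter.unusedSectionVars false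
set_option linter.style.haveILetI false

open scoped Matrix
open WithZero

noncomputable section

namespace Fermat.Agent.LT.T6.H846

open Fermat.Agent.LT.T6 Fermat.Agent.LT.T6.H783

/-! ### Pruning -/

theorem prune846 {α : Type} (r : α → α → Prop) (hrefl : ∀ a, r a a)
    (hsymm : ∀ a b, r a b → r b a) (htrans : ∀ a b c, r a b → r b c → r a c)
    (Y : Finset α) :
    ∃ Y' : Finset α, Y' ⊆ Y ∧ (∀ y ∈ Y', ∀ y' ∈ Y', r y y' → y = y') ∧
      ∀ y ∈ Y, ∃ y' ∈ Y', r y' y := by
  classical
  induction Y using Finset.induction_on with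
  | empty => exact ⟨∅, Finset.Subset.refl _, by simp, by simp⟩
  | insert a Y _ ih =>
    obtain ⟨Y', hsub, hdist, hcov⟩ := ih
    by_cases h : ∃ y' ∈ Y', r y' a
    · refine ⟨Y', hsub.trans (Finset.subset_insert _ _), hdist, ?_⟩
      intro y hy
      rcases Finset.mem_insert.1 hy with e | hy1
      · rw [e]
        exact h
      · exact hcov y hy1
    · refine ⟨insert a Y', Finset.insert_subset_insert _ hsub, ?_, ?_⟩
      · intro y hy y' hy' hr
        rcases Finset.mem_insert.1 hy with e | hy1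
        · rcases Finset.mem_insert.1 hy' with e' | hy1'
          · rw [e, e']
          · exfalso
            apply h
            rw [e] at hr
            exact ⟨y', hy1', hsymm _ _ hr⟩
        · rcases Finset.mem_insert.1 hy' with e' | hy1'
          · exfalso
            apply h
            rw [e'] at hr
            exact ⟨y, hy1, hr⟩
          · exact hdist y hy1 y' hy1' hr
      · intro y hy
        rcases Finset.mem_insert.1 hy with e | hy1
        · exact ⟨a, Finset.mem_insert_self _ _, by rw [e]; exact hrefl _⟩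
        · obtain ⟨y', hy', hr⟩ := hcov y hy1
          exact ⟨y', Finset.mem_insert_of_mem hy', hr⟩

/-! ### Algebra of orbit sums -/

section OrbAlgebra

variable {Γ : Type} [Group Γ]

theorem isOrbSumGen_smul846 (s : Γ →* Γ) (U : Γ → Prop) (C : Γ → Γ → Prop) (φ : Γ → ℂ)
    (δ : Γ) (c a : ℂ) (ha : a ≠ 0) (h : IsOrbSumGen s U C φ δ c) :
    IsOrbSumGen s U C (fun g => a * φ g) δ (a * c) := by
  obtain ⟨R, h1, h2, h3, h4⟩ := h
  refine ⟨R, h1, h2, ?_, ?_⟩
  · intro y hy hne
    refine h3 y hy (fun h0 => hne ?_)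
    change a * φ y = 0
    rw [h0, mul_zero]
  · rw [h4, Finset.mul_sum]
    exact Finset.sum_congr rfl fun y _ => by ring

theorem isOrbSumGen_zero846 (s : Γ →* Γ) (U : Γ → Prop) (C : Γ → Γ → Prop) (δ : Γ) :
    IsOrbSumGen s U C (0 : Γ → ℂ) δ 0 :=
  ⟨∅, by simp, by simp, fun y _ hne => absurd rfl hne, by simp⟩

theorem isBiInv_add846 (U : Γ → Prop) (f g : Γ → ℂ) (hf : IsBiInv U f) (hg : IsBiInv U g) :
    IsBiInv U (f + g) := fun u u' x hu hu' => by
  simp only [Pi.add_apply]
  rw [hf u u' x hu hu', hg u u' x hu hu']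

theorem isBiInv_zero846 (U : Γ → Prop) : IsBiInv U (0 : Γ → ℂ) := fun _ _ _ _ _ => rfl

theorem isBiInv_smul846 (U : Γ → Prop) (f : Γ → ℂ) (a : ℂ) (hf : IsBiInv U f) :
    IsBiInv U (fun g => a * f g) := fun u u' x hu hu' => by
  simp only
  rw [hf u u' x hu hu']

theorem isBiInv_sum846 {ι : Type} (U : Γ → Prop) (Y : Finset ι) (f : ι → Γ → ℂ)
    (hf : ∀ y ∈ Y, IsBiInv U (f y)) : IsBiInv U (∑ y ∈ Y, f y) := by
  classical
  induction Y using Finset.induction_on with
  | empty => simpa using isBiInv_zero846 U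
  | insert a Y ha ih =>
    rw [Finset.sum_insert ha]
    exact isBiInv_add846 U _ _ (hf a (Finset.mem_insert_self _ _))
      (ih fun y hy => hf y (Finset.mem_insert_of_mem hy))

theorem hasFinSupp_smul846 (U : Γ → Prop) (f : Γ → ℂ) (a : ℂ) (hf : HasFinSupp U f) :
    HasFinSupp U (fun g => a * f g) := by
  obtain ⟨F, hF⟩ := hf
  refine ⟨F, fun g hg => hF g (fun h0 => hg ?_)⟩
  change a * f g = 0
  rw [h0, mul_zero]

theorem hasFinSupp_sum846 {ι : Type} (U : Γ → Prop) (Y : Finset ι) (f : ι → Γ → ℂ)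
    (hf : ∀ y ∈ Y, HasFinSupp U (f y)) : HasFinSupp U (∑ y ∈ Y, f y) := by
  classical
  choose! F hF using hf
  refine ⟨Y.biUnion F, fun g hg => ?_⟩
  rw [Finset.sum_apply] at hg
  obtain ⟨y, hy, hne⟩ := Finset.exists_ne_zero_of_sum_ne_zero hg
  obtain ⟨x, hx, u, hu, e⟩ := hF y hy g hne
  exact ⟨x, Finset.mem_biUnion.2 ⟨y, hy, hx⟩, u, hu, e⟩

end OrbAlgebra

section OrbSumK

variable {k : Type} [Field k] [Valued k Γ₀]

theorem isOrbSum_sum846 (hadd : AddC783) {ι : Type} (m : ℕ) (Y : Finset ι)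
    (f : ι → GL (Fin 2) k → ℂ) (c : ι → ℂ) (γ : GL (Fin 2) k)
    (hf : ∀ y ∈ Y, IsBiInv (InU m) (f y)) (hc : ∀ y ∈ Y, IsOrbSum m (f y) γ (c y)) :
    IsOrbSum m (∑ y ∈ Y, f y) γ (∑ y ∈ Y, c y) := by
  classical
  induction Y using Finset.induction_on with
  | empty =>
    simp only [Finset.sum_empty]
    exact isOrbSumGen_zero846 _ _ _ _
  | insert a Y ha ih =>
    rw [Finset.sum_insert ha, Finset.sum_insert ha]
    exact hadd k m _ _ (hf a (Finset.mem_insert_self _ _))
      (isBiInv_sum846 _ Y f fun y hy => hf y (Finset.mem_insert_of_mem hy)) γ _ _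
      (hc a (Finset.mem_insert_self _ _))
      (ih (fun y hy => hf y (Finset.mem_insert_of_mem hy))
        (fun y hy => hc y (Finset.mem_insert_of_mem hy)))

/-- The trivial extension `k / k`. -/
theorem isLocalExt_refl846 : IsLocalExt k k 1 1 (RingHom.id k) (RingEquiv.refl k) where
  cyc :=
    { pos := Nat.one_pos
      fix_i := fun _ => rfl
      fixed := fun y _ => ⟨y, rfl⟩
      order := fun _ => rfl
      faithful := fun m hm hm' => by omega }
  e_pos := Nat.one_pos
  val_i := fun x => by simp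
  val_s := fun _ => rfl

/-- Untwisted orbit sums exist (from `OrbSumExC` for the trivial extension). -/
theorem exists_orbSum846 (hex : OrbSumExC) {q : ℕ} (hk : IsLocalField k q) (m : ℕ)
    (f : GL (Fin 2) k → ℂ) (hf : IsBiInv (InU m) f) (hs : HasFinSupp (InU m) f)
    (γ : GL (Fin 2) k) (hγ : IsReg γ) : ∃ c : ℂ, IsOrbSum m f γ c := by
  have hk' : IsLocalField k (q ^ (1 / 1)) := by simpa using hk
  have hreg : IsReg (twNorm (RingEquiv.refl k) 1 γ) := by
    have e : twNorm (RingEquiv.refl k) 1 γ = γ := by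
      change γ * glAut (RingEquiv.refl k) 1 = γ
      rw [map_one, mul_one]
    rw [e]
    exact hγ
  exact hex k k q 1 1 (RingHom.id k) (RingEquiv.refl k) hk hk' isLocalExt_refl846 m f hf hs γ hreg

theorem orbSum_unique846 (huq : OrbSumUniqC) (m : ℕ) (f : GL (Fin 2) k → ℂ)
    (hf : IsBiInv (InU m) f) (γ : GL (Fin 2) k) (c c' : ℂ) (h : IsOrbSum m f γ c)
    (h' : IsOrbSum m f γ c') : c = c' :=
  huq k (RingEquiv.refl k) (fun _ => rfl) m f hf γ c c' h h'

end OrbSumK

/-! ### `h ^ l` regular implies `h` regular -/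

section Reg

variable {F : Type} [Field F]

theorem sq_eq_cayley846 (A : Matrix (Fin 2) (Fin 2) F) :
    A * A = A.trace • A - A.det • (1 : Matrix (Fin 2) (Fin 2) F) := by
  rw [Matrix.eta_fin_two (A * A), Matrix.eta_fin_two
    (A.trace • A - A.det • (1 : Matrix (Fin 2) (Fin 2) F))]
  simp only [Matrix.mul_apply, Fin.sum_univ_two, Matrix.trace_fin_two, Matrix.det_fin_two,
    Matrix.sub_apply, Matrix.smul_apply, Matrix.one_apply, smul_eq_mul]
  congr 1
  ext i j
  fin_cases i <;> fin_cases j <;> simp <;> ring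

theorem pow_eq_lin846 (A : Matrix (Fin 2) (Fin 2) F) (l : ℕ) :
    ∃ a b : F, A ^ l = a • A + b • (1 : Matrix (Fin 2) (Fin 2) F) := by
  induction l with
  | zero => exact ⟨0, 1, by simp⟩
  | succ l ih =>
    obtain ⟨a, b, h⟩ := ih
    refine ⟨a * A.trace + b, -(a * A.det), ?_⟩
    rw [pow_succ, h, add_mul, smul_mul_assoc, sq_eq_cayley846 A, smul_mul_assoc, one_mul]
    simp only [smul_sub, smul_smul, add_smul, neg_smul]
    abel

theorem disc_lin846 (A : Matrix (Fin 2) (Fin 2) F) (a b : F) :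
    (a • A + b • (1 : Matrix (Fin 2) (Fin 2) F)).trace ^ 2
        - 4 * (a • A + b • (1 : Matrix (Fin 2) (Fin 2) F)).det
      = a ^ 2 * (A.trace ^ 2 - 4 * A.det) := by
  simp only [Matrix.trace_fin_two, Matrix.det_fin_two, Matrix.add_apply, Matrix.smul_apply,
    Matrix.one_apply, smul_eq_mul]
  simp
  ring

theorem isReg_of_pow846 (h : GL (Fin 2) F) (l : ℕ) (hreg : IsReg (h ^ l)) : IsReg h := by
  have h1 : disc (h ^ l) ≠ 0 := hreg.ne_zero
  obtain ⟨a, b, hab⟩ := pow_eq_lin846 (h : Matrix (Fin 2) (Fin 2) F) l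
  have h2 : disc (h ^ l) = a ^ 2 * disc h := by
    unfold disc
    rw [Units.val_pow_eq_pow_val, hab, disc_lin846]
  rw [h2] at h1
  exact (isUnit_iff_ne_zero).2 (right_ne_zero_of_mul h1)

end Reg

end Fermat.Agent.LT.T6.H846

end
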