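import Mathlib
import Fermat.Agent.LT.T6.Spec
import Fermat.Agent.LT.T6.H783.DescSpec
import Fermat.Agent.LT.T6.H846.OrbAlg
import Fermat.Agent.LT.T6.H846.OrbTop

/-!
# Row LT, tower T6, leaf T6.18g2-D0 `DecompGlueC783` (helper846) -- bounded sets, OFF-MAIN

* `EntryBdd783` is stable under products and inverses; every element and every finite set is
  bounded;
* `inU_conj846` : `y⁻¹ U(n + 2A) y ⊆ U(n)` for `y` bounded by `exp A`;
* `localFinite846` : a bounded subset of `GL₂(k)`, `k` a local field, is covered by finitely many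
  cosets `x U(m)`;
* the inclusion `GL₂(k) → GL₂(k')` of a local extension: `ι U(m) ⊆ U'(m)`, `ι(g)` bounded `⇒ g`
  bounded, `σ ∘ ι = ι`.
-/

set_option autoImplicit false
set_option linter.unusedSectionVars false
set_option linter.style.haveILetI false

open scoped Matrix
open WithZero

noncomputable section

namespace Fermat.Agent.LT.T6.H846

open Fermat.Agent.LT.T6 Fermat.Agent.LT.T6.H783

section Bdd

variable {K : Type} [Field K] [Valued K Γ₀]

theorem entryBdd_iff846 (A : ℤ) (g : GL (Fin 2) K) :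
    EntryBdd783 A g ↔ EntLe846 (exp A) (g : Matrix (Fin 2) (Fin 2) K) ∧
      EntLe846 (exp A) ((g⁻¹ : GL (Fin 2) K) : Matrix (Fin 2) (Fin 2) K) := by
  constructor
  · intro h
    exact ⟨fun a b => (h a b).1, fun a b => (h a b).2⟩
  · intro h a b
    exact ⟨h.1 a b, h.2 a b⟩

theorem entryBdd_inv846 (A : ℤ) (g : GL (Fin 2) K) (h : EntryBdd783 A g) :
    EntryBdd783 A g⁻¹ := by
  rw [entryBdd_iff846] at h ⊢
  refine ⟨h.2, ?_⟩
  rw [inv_inv]
  exact h.1

theorem entryBdd_mul846 (A B : ℤ) (g h : GL (Fin 2) K) (hg : EntryBdd783 A g)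
    (hh : EntryBdd783 B h) : EntryBdd783 (A + B) (g * h) := by
  rw [entryBdd_iff846] at hg hh ⊢
  refine ⟨?_, ?_⟩
  · rw [Units.val_mul, exp_add]
    exact hg.1.mul hh.1
  · rw [mul_inv_rev, Units.val_mul, exp_add, mul_comm (exp A)]
    exact hh.2.mul hg.2

theorem entryBdd_mono846 {A B : ℤ} (hAB : A ≤ B) (g : GL (Fin 2) K) (h : EntryBdd783 A g) :
    EntryBdd783 B g := by
  rw [entryBdd_iff846] at h ⊢
  have : exp A ≤ (exp B : Γ₀) := exp_le_exp.2 hAB
  exact ⟨h.1.mono this, h.2.mono this⟩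

theorem entryBdd_of_inU846 (n : ℕ) (u : GL (Fin 2) K) (hu : InU n u) : EntryBdd783 0 u := by
  rw [entryBdd_iff846, exp_zero]
  exact ⟨entLe_of_inU846 n u hu, entLe_of_inU846 n u⁻¹ (inU_inv846 n u hu)⟩

theorem exists_nat_bound846 (x : K) : ∃ A : ℕ, Valued.v x ≤ exp (A : ℤ) := by
  refine ⟨(log (Valued.v x)).toNat, le_trans le_exp_log ?_⟩
  rw [exp_le_exp]
  exact Int.self_le_toNat _

theorem exists_entryBdd846 (g : GL (Fin 2) K) : ∃ A : ℕ, EntryBdd783 (A : ℤ) g := by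
  choose a ha using fun p : Fin 2 × Fin 2 =>
    exists_nat_bound846 ((g : Matrix (Fin 2) (Fin 2) K) p.1 p.2)
  choose a' ha' using fun p : Fin 2 × Fin 2 =>
    exists_nat_bound846 (((g⁻¹ : GL (Fin 2) K) : Matrix (Fin 2) (Fin 2) K) p.1 p.2)
  refine ⟨Finset.univ.sup (fun p => a p + a' p), fun i j => ⟨?_, ?_⟩⟩
  · refine (ha (i, j)).trans (exp_le_exp.2 ?_)
    have h1 : a (i, j) + a' (i, j) ≤ Finset.univ.sup (fun p => a p + a' p) :=
      Finset.le_sup (f := fun p => a p + a' p) (Finset.mem_univ (i, j))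
    omega
  · refine (ha' (i, j)).trans (exp_le_exp.2 ?_)
    have h1 : a (i, j) + a' (i, j) ≤ Finset.univ.sup (fun p => a p + a' p) :=
      Finset.le_sup (f := fun p => a p + a' p) (Finset.mem_univ (i, j))
    omega

theorem exists_entryBdd_finset846 (Y : Finset (GL (Fin 2) K)) :
    ∃ A : ℕ, ∀ y ∈ Y, EntryBdd783 (A : ℤ) y := by
  choose b hb using fun y : GL (Fin 2) K => exists_entryBdd846 y
  refine ⟨Y.sup b, fun y hy => entryBdd_mono846 ?_ y (hb y)⟩
  have : b y ≤ Y.sup b := Finset.le_sup hy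
  exact_mod_cast this

theorem conj_sub_one846 (y u : GL (Fin 2) K) :
    ((y⁻¹ * u * y : GL (Fin 2) K) : Matrix (Fin 2) (Fin 2) K) - 1
      = ((y⁻¹ : GL (Fin 2) K) : Matrix (Fin 2) (Fin 2) K)
        * ((u : Matrix (Fin 2) (Fin 2) K) - 1) * (y : Matrix (Fin 2) (Fin 2) K) := by
  have h1 : ((y⁻¹ : GL (Fin 2) K) : Matrix (Fin 2) (Fin 2) K) * (y : Matrix (Fin 2) (Fin 2) K)
      = 1 := by
    rw [← Units.val_mul, inv_mul_cancel]
    rfl
  rw [Units.val_mul, Units.val_mul, mul_sub, sub_mul, mul_one, h1]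

theorem inU_conj846 (A n : ℕ) (y u : GL (Fin 2) K) (hy : EntryBdd783 (A : ℤ) y)
    (hu : InU (n + 2 * A) u) : InU n (y⁻¹ * u * y) := by
  rw [entryBdd_iff846] at hy
  have key : ∀ w : GL (Fin 2) K,
      EntLe846 (exp (-((n + 2 * A : ℕ) : ℤ))) ((w : Matrix (Fin 2) (Fin 2) K) - 1) →
      EntLe846 (exp (-(n : ℤ))) (((y⁻¹ * w * y : GL (Fin 2) K) : Matrix (Fin 2) (Fin 2) K) - 1) := by
    intro w hw
    rw [conj_sub_one846]
    have h := (hy.2.mul hw).mul hy.1
    have e : exp (A : ℤ) * exp (-((n + 2 * A : ℕ) : ℤ)) * exp (A : ℤ) = (exp (-(n : ℤ)) : Γ₀) := by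
      rw [← exp_add, ← exp_add]
      congr 1
      push_cast
      ring
    rwa [e] at h
  rw [inU_iff846] at hu ⊢
  refine ⟨key u hu.1, ?_⟩
  have e : (y⁻¹ * u * y)⁻¹ = y⁻¹ * u⁻¹ * y := by group
  rw [e]
  exact key u⁻¹ hu.2

/-- **Local finiteness**: a bounded subset of `GL₂(K)` is covered by finitely many cosets of
`U(m)`. -/
theorem localFinite846 {q : ℕ} (hk : IsLocalField K q) (A m : ℕ) :
    ∃ F : Finset (GL (Fin 2) K), ∀ g : GL (Fin 2) K, EntryBdd783 (A : ℤ) g →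
      ∃ x ∈ F, ∃ u : GL (Fin 2) K, InU m u ∧ g = x * u := by
  classical
  obtain ⟨ϖ, hϖ⟩ := hk.unif
  obtain ⟨T, -, -, -, hT⟩ := hk.residue
  have hϖ0 : ϖ ≠ 0 := by
    intro h0
    rw [h0, map_zero] at hϖ
    exact exp_ne_zero hϖ.symm
  set M : ℕ := m + A with hM
  set D : Finset K := digits846 T ϖ (M + A) with hD
  -- the approximation property
  let P : (Fin 2 → Fin 2 → K) → GL (Fin 2) K → Prop := fun d x =>
    EntryBdd783 (A : ℤ) x ∧
      ∀ i j, Valued.v ((x : Matrix (Fin 2) (Fin 2) K) i j - (ϖ⁻¹) ^ A * d i j) ≤ exp (-(M : ℤ))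
  let c : (Fin 2 → Fin 2 → K) → GL (Fin 2) K := fun d =>
    if h : ∃ x, P d x then Classical.choose h else 1
  have hc : ∀ d, (∃ x, P d x) → P d (c d) := by
    intro d h
    simp only [c, dif_pos h]
    exact Classical.choose_spec h
  refine ⟨(Fintype.piFinset fun _ : Fin 2 => Fintype.piFinset fun _ : Fin 2 => D).image c, ?_⟩
  intro g hg
  -- digits of the entries of `g`
  have hdig : ∀ i j, ∃ d ∈ D, Valued.v ((g : Matrix (Fin 2) (Fin 2) K) i j - (ϖ⁻¹) ^ A * d)
      ≤ exp (-(M : ℤ)) := by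
    intro i j
    have hz : Valued.v (ϖ ^ A * (g : Matrix (Fin 2) (Fin 2) K) i j) ≤ 1 := by
      rw [map_mul, map_pow, hϖ]
      calc exp (-1 : ℤ) ^ A * Valued.v ((g : Matrix (Fin 2) (Fin 2) K) i j)
          ≤ exp (-1 : ℤ) ^ A * exp (A : ℤ) := by
            gcongr
            exact (hg i j).1
        _ = 1 := by
            rw [← exp_nsmul, ← exp_add]
            simp
    obtain ⟨d, hd, hzd⟩ := exists_digit846 T ϖ hϖ hT (M + A) _ hz
    refine ⟨d, hd, ?_⟩
    have e : (g : Matrix (Fin 2) (Fin 2) K) i j - (ϖ⁻¹) ^ A * d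
        = (ϖ⁻¹) ^ A * (ϖ ^ A * (g : Matrix (Fin 2) (Fin 2) K) i j - d) := by
      have : ϖ ^ A ≠ 0 := pow_ne_zero A hϖ0
      rw [mul_sub, ← mul_assoc, inv_pow, inv_mul_cancel₀ this, one_mul]
    rw [e, map_mul, map_pow, map_inv₀, hϖ]
    calc (exp (-1 : ℤ))⁻¹ ^ A * Valued.v (ϖ ^ A * (g : Matrix (Fin 2) (Fin 2) K) i j - d)
        ≤ (exp (-1 : ℤ))⁻¹ ^ A * exp (-((M + A : ℕ) : ℤ)) := by gcongr
      _ = exp (-(M : ℤ)) := by
          rw [← exp_neg, ← exp_nsmul, ← exp_add]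
          congr 1
          push_cast
          simp
  choose d hdD hdv using hdig
  have hPg : P d g := ⟨hg, hdv⟩
  have hPc := hc d ⟨g, hPg⟩
  refine ⟨c d, Finset.mem_image.2 ⟨d, ?_, rfl⟩, (c d)⁻¹ * g, ?_, by group⟩
  · simp only [Fintype.mem_piFinset]
    exact fun i j => hdD i j
  · -- `x⁻¹ g ∈ U(m)`
    have hclose : EntLe846 (exp (-(M : ℤ)))
        ((g : Matrix (Fin 2) (Fin 2) K) - (c d : Matrix (Fin 2) (Fin 2) K)) := by
      intro i j
      have e : ((g : Matrix (Fin 2) (Fin 2) K) - (c d : Matrix (Fin 2) (Fin 2) K)) i j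
          = ((g : Matrix (Fin 2) (Fin 2) K) i j - (ϖ⁻¹) ^ A * d i j)
            - ((c d : Matrix (Fin 2) (Fin 2) K) i j - (ϖ⁻¹) ^ A * d i j) := by
        rw [Matrix.sub_apply]
        ring
      rw [e]
      exact Valuation.map_sub_le _ (hdv i j) (hPc.2 i j)
    have hclose' : EntLe846 (exp (-(M : ℤ)))
        ((c d : Matrix (Fin 2) (Fin 2) K) - (g : Matrix (Fin 2) (Fin 2) K)) := by
      intro i j
      rw [Matrix.sub_apply, Valuation.map_sub_swap, ← Matrix.sub_apply]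
      exact hclose i j
    have hAM : exp (A : ℤ) * exp (-(M : ℤ)) = (exp (-(m : ℤ)) : Γ₀) := by
      rw [← exp_add]
      congr 1
      rw [hM]
      push_cast
      ring
    have hx := (entryBdd_iff846 _ _).1 hPc.1
    have hg' := (entryBdd_iff846 _ _).1 hg
    rw [inU_iff846]
    refine ⟨?_, ?_⟩
    · have e : (((c d)⁻¹ * g : GL (Fin 2) K) : Matrix (Fin 2) (Fin 2) K) - 1
          = (((c d)⁻¹ : GL (Fin 2) K) : Matrix (Fin 2) (Fin 2) K)
            * ((g : Matrix (Fin 2) (Fin 2) K) - (c d : Matrix (Fin 2) (Fin 2) K)) := by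
        rw [Units.val_mul, mul_sub, Units.inv_mul]
      rw [e, ← hAM]
      exact hx.2.mul hclose
    · have e : ((((c d)⁻¹ * g)⁻¹ : GL (Fin 2) K) : Matrix (Fin 2) (Fin 2) K) - 1
          = ((g⁻¹ : GL (Fin 2) K) : Matrix (Fin 2) (Fin 2) K)
            * ((c d : Matrix (Fin 2) (Fin 2) K) - (g : Matrix (Fin 2) (Fin 2) K)) := by
        rw [mul_inv_rev, inv_inv, Units.val_mul, mul_sub, Units.inv_mul]
      rw [e, ← hAM]
      exact hg'.2.mul hclose'

end Bdd

section Ext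

variable {k k' : Type} [Field k] [Field k'] [Valued k Γ₀] [Valued k' Γ₀]

theorem map_apply846 (i : k →+* k') (g : GL (Fin 2) k) (a b : Fin 2) :
    (Matrix.GeneralLinearGroup.map i g : Matrix (Fin 2) (Fin 2) k') a b
      = i ((g : Matrix (Fin 2) (Fin 2) k) a b) :=
  Matrix.GeneralLinearGroup.map_apply i a b g

theorem pow_le_self846 (x : Γ₀) (hx : x ≤ 1) (e : ℕ) (he : 0 < e) : x ^ e ≤ x := by
  obtain ⟨e', rfl⟩ := Nat.exists_eq_succ_of_ne_zero he.ne'
  rw [pow_succ]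
  calc x ^ e' * x ≤ 1 * x := by
        gcongr
        exact pow_le_one' hx e'
    _ = x := one_mul _

theorem le_of_pow_le846 (x : Γ₀) (A : ℕ) (e : ℕ) (he : 0 < e) (h : x ^ e ≤ exp (A : ℤ)) :
    x ≤ exp (A : ℤ) := by
  by_contra hx
  rw [not_le] at hx
  have h1 : (1 : Γ₀) ≤ exp (A : ℤ) := by
    rw [← exp_zero, exp_le_exp]
    omega
  have h2 : (1 : Γ₀) ≤ x := h1.trans hx.le
  obtain ⟨e', rfl⟩ := Nat.exists_eq_succ_of_ne_zero he.ne'
  have h3 : x ≤ x ^ (e' + 1) := by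
    rw [pow_succ]
    calc x = 1 * x := (one_mul _).symm
      _ ≤ x ^ e' * x := by
          gcongr
          exact one_le_pow_of_one_le' h2 e'
  exact absurd (h3.trans h) (not_le.2 hx)

theorem le_one_of_pow_le_one846 (x : Γ₀) (e : ℕ) (he : 0 < e) (h : x ^ e ≤ 1) : x ≤ 1 := by
  have := le_of_pow_le846 x 0 e he (by simpa using h)
  simpa using this

theorem eq_one_of_pow_eq_one846 (x : Γ₀) (e : ℕ) (he : 0 < e) (h : x ^ e = 1) : x = 1 := by
  have h1 : x ≤ 1 := le_one_of_pow_le_one846 x e he h.le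
  refine le_antisymm h1 ?_
  by_contra hx
  rw [not_le] at hx
  have h2 : x ^ e ≤ x := pow_le_self846 x h1 e he
  rw [h] at h2
  exact absurd h2 (not_le.2 hx)

theorem inU_map846 (i : k →+* k') (e : ℕ) (he : 0 < e)
    (hval : ∀ x : k, Valued.v (i x) = Valued.v x ^ e) (m : ℕ) (u : GL (Fin 2) k)
    (hu : InU m u) : InU m (Matrix.GeneralLinearGroup.map i u) := by
  have key : ∀ (g : GL (Fin 2) k) (a b : Fin 2),
      Valued.v ((g : Matrix (Fin 2) (Fin 2) k) a b - (1 : Matrix (Fin 2) (Fin 2) k) a b)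
        ≤ exp (-(m : ℤ)) →
      Valued.v ((Matrix.GeneralLinearGroup.map i g : Matrix (Fin 2) (Fin 2) k') a b
        - (1 : Matrix (Fin 2) (Fin 2) k') a b) ≤ exp (-(m : ℤ)) := by
    intro g a b h
    have h1 : (1 : Matrix (Fin 2) (Fin 2) k') a b = i ((1 : Matrix (Fin 2) (Fin 2) k) a b) := by
      rw [Matrix.one_apply, Matrix.one_apply]
      split_ifs <;> simp
    rw [map_apply846, h1, ← map_sub, hval]
    refine (pow_le_self846 _ (h.trans (exp_neg_le_one846 m)) e he).trans h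
  intro a b
  refine ⟨key u a b (hu a b).1, ?_⟩
  have : (Matrix.GeneralLinearGroup.map i u)⁻¹ = Matrix.GeneralLinearGroup.map i u⁻¹ :=
    (map_inv (Matrix.GeneralLinearGroup.map i) u).symm
  rw [this]
  exact key u⁻¹ a b (hu a b).2

theorem entryBdd_of_map846 (i : k →+* k') (e : ℕ) (he : 0 < e)
    (hval : ∀ x : k, Valued.v (i x) = Valued.v x ^ e) (A : ℕ) (g : GL (Fin 2) k)
    (h : EntryBdd783 (A : ℤ) (Matrix.GeneralLinearGroup.map i g)) : EntryBdd783 (A : ℤ) g := by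
  intro a b
  have h1 := (h a b).1
  have h2 := (h a b).2
  have e2 : (Matrix.GeneralLinearGroup.map i g)⁻¹ = Matrix.GeneralLinearGroup.map i g⁻¹ :=
    (map_inv (Matrix.GeneralLinearGroup.map i) g).symm
  rw [e2] at h2
  rw [map_apply846, hval] at h1 h2
  exact ⟨le_of_pow_le846 _ A e he h1, le_of_pow_le846 _ A e he h2⟩

theorem glAut_map846 (i : k →+* k') (s : k' ≃+* k') (hfix : ∀ x : k, s (i x) = i x)
    (g : GL (Fin 2) k) :
    glAut s (Matrix.GeneralLinearGroup.map i g) = Matrix.GeneralLinearGroup.map i g := by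
  apply Units.ext
  ext a b
  rw [glAut_apply846, map_apply846, hfix]

theorem trace_map846 (i : k →+* k') (g : GL (Fin 2) k) :
    (Matrix.GeneralLinearGroup.map i g : Matrix (Fin 2) (Fin 2) k').trace
      = i (g : Matrix (Fin 2) (Fin 2) k).trace := by
  rw [Matrix.trace_fin_two, Matrix.trace_fin_two, map_apply846, map_apply846, map_add]

theorem det_map846 (i : k →+* k') (g : GL (Fin 2) k) :
    (Matrix.GeneralLinearGroup.map i g : Matrix (Fin 2) (Fin 2) k').det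
      = i (g : Matrix (Fin 2) (Fin 2) k).det := by
  rw [Matrix.det_fin_two, Matrix.det_fin_two, map_apply846, map_apply846, map_apply846,
    map_apply846, map_sub, map_mul, map_mul]

theorem entryBdd_glAut846 (s : k' ≃+* k') (hs : ∀ y : k', Valued.v (s y) = Valued.v y)
    (A : ℤ) (g : GL (Fin 2) k') (h : EntryBdd783 A g) : EntryBdd783 A (glAut s g) := by
  intro a b
  have e2 : (glAut s g)⁻¹ = glAut s g⁻¹ := (map_inv (glAut s) g).symm
  rw [e2, glAut_apply846, glAut_apply846, hs, hs]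
  exact h a b

end Ext

end Fermat.Agent.LT.T6.H846

end
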