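import Mathlib
import Fermat.Agent.LT.T6.Spec
import Fermat.Agent.LT.T6.H783.DescSpec
import Fermat.Agent.LT.T6.H846.OrbAlg
import Fermat.Agent.LT.T6.H846.OrbTop
import Fermat.Agent.LT.T6.H846.DecompBasic
import Fermat.Agent.LT.T6.H846.DecompBdd

/-!
# Row LT, tower T6, leaf T6.18g2-D0 `DecompGlueC783` (helper846), OFF-MAIN

`decompGlueC846 : Fermat.Agent.LT.T6.H783.DecompGlueC783` VERBATIM (sub-spec of helper783,
`DescSpec.lean` sha256 efb33450):
`FibreC783 → GenLvlC783 → OrbSumExC → OrbSumUniqC → AddC783 → DecompC783`.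

Proof: prune `Y` to representatives `Y'` of distinct double cosets `G y U'(n)`; `A` a common
bound of the entries of the `y ∈ Y'`, `m = n + 2 A`; then `U(m) ⊆ Γ_y`, `φ_y` is bi-`U(m)`-invariant
of finite support (local finiteness), `Γ_y` is a bounded subgroup with integral traces and unit
determinants; `ψ = ∑_{y ∈ Y'} κ_y⁻¹ φ_y` with the `κ_y` of `GenLvlC783`.
-/

set_option autoImplicit false
set_option linter.unusedSectionVars false
set_option linter.style.haveILetI false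

open scoped Matrix
open WithZero

noncomputable section

namespace Fermat.Agent.LT.T6.H846

open Fermat.Agent.LT.T6 Fermat.Agent.LT.T6.H783

section Conj

variable {K : Type} [Field K]

theorem trace_conj846 (x t : GL (Fin 2) K) :
    ((x⁻¹ * t * x : GL (Fin 2) K) : Matrix (Fin 2) (Fin 2) K).trace
      = (t : Matrix (Fin 2) (Fin 2) K).trace := by
  rw [Units.val_mul, Units.val_mul, Matrix.trace_mul_cycle, ← Units.val_mul, mul_inv_cancel]
  simp

theorem det_conj846 (x t : GL (Fin 2) K) :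
    ((x⁻¹ * t * x : GL (Fin 2) K) : Matrix (Fin 2) (Fin 2) K).det
      = (t : Matrix (Fin 2) (Fin 2) K).det := by
  rw [Units.val_mul, Units.val_mul, Matrix.det_mul, Matrix.det_mul, mul_comm, ← mul_assoc,
    ← Matrix.det_mul, ← Units.val_mul, mul_inv_cancel]
  simp

end Conj

section DC

variable {k k' : Type} [Field k] [Field k'] [Valued k' Γ₀]

theorem inDC_refl846 (i : k →+* k') (n : ℕ) (y : GL (Fin 2) k') : InDC783 i n y y :=
  ⟨1, 1, inU_one846 n, by simp⟩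

theorem inDC_symm846 (i : k →+* k') (n : ℕ) (y x : GL (Fin 2) k') (h : InDC783 i n y x) :
    InDC783 i n x y := by
  obtain ⟨g, u, hu, hx⟩ := h
  refine ⟨g⁻¹, u⁻¹, inU_inv846 n u hu, ?_⟩
  rw [hx, map_inv]
  group

theorem inDC_trans846 (i : k →+* k') (n : ℕ) (a b c : GL (Fin 2) k') (h : InDC783 i n a b)
    (h' : InDC783 i n b c) : InDC783 i n a c := by
  obtain ⟨g, u, hu, hb⟩ := h
  obtain ⟨g', u', hu', hc⟩ := h'
  refine ⟨g' * g, u * u', inU_mul846 n u u' hu hu', ?_⟩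
  rw [hc, hb, map_mul]
  group

end DC

section PerY

variable {k k' : Type} [Field k] [Field k'] [Valued k Γ₀] [Valued k' Γ₀]

/-- the data of the local extension used below -/
structure ExtData846 (i : k →+* k') (s : k' ≃+* k') (e : ℕ) : Prop where
  e_pos : 0 < e
  val_i : ∀ x : k, Valued.v (i x) = Valued.v x ^ e
  val_s : ∀ y : k', Valued.v (s y) = Valued.v y
  fix_i : ∀ x : k, s (i x) = i x

variable {i : k →+* k'} {s : k' ≃+* k'} {e : ℕ}

theorem ExtData846.conj_mem (E : ExtData846 i s e) (A n : ℕ) (y : GL (Fin 2) k')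
    (hy : EntryBdd783 (A : ℤ) y) (u : GL (Fin 2) k) (hu : InU (n + 2 * A) u) :
    InU n (y⁻¹ * Matrix.GeneralLinearGroup.map i u * y) :=
  inU_conj846 A n y _ hy (inU_map846 i e E.e_pos E.val_i _ u hu)

theorem ExtData846.glAut_conj (E : ExtData846 i s e) (y : GL (Fin 2) k') (g : GL (Fin 2) k) :
    glAut s (y⁻¹ * Matrix.GeneralLinearGroup.map i g * y)
      = (glAut s y)⁻¹ * Matrix.GeneralLinearGroup.map i g * glAut s y := by
  rw [map_mul, map_mul, map_inv, glAut_map846 i s E.fix_i]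

theorem ExtData846.conj_mem' (E : ExtData846 i s e) (n : ℕ) (y : GL (Fin 2) k')
    (g : GL (Fin 2) k) (h : InU n (y⁻¹ * Matrix.GeneralLinearGroup.map i g * y)) :
    InU n ((glAut s y)⁻¹ * Matrix.GeneralLinearGroup.map i g * glAut s y) := by
  rw [← E.glAut_conj]
  exact inU_glAut846 s E.val_s n _ h

theorem phiY_eq846 (i : k →+* k') (s : k' ≃+* k') (φ : GL (Fin 2) k' → ℂ)
    (y : GL (Fin 2) k') (u g u' : GL (Fin 2) k) :
    phiY783 i s φ y (u * g * u')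
      = φ ((y⁻¹ * Matrix.GeneralLinearGroup.map i u * y)
        * (y⁻¹ * Matrix.GeneralLinearGroup.map i g * glAut s y)
        * ((glAut s y)⁻¹ * Matrix.GeneralLinearGroup.map i u' * glAut s y)) := by
  unfold phiY783
  congr 1
  rw [map_mul, map_mul]
  group

theorem ExtData846.phiY_biInv (E : ExtData846 i s e) (A n : ℕ) (φ : GL (Fin 2) k' → ℂ)
    (hφ : IsBiInv (InU n) φ) (y : GL (Fin 2) k') (hy : EntryBdd783 (A : ℤ) y) :
    IsBiInv (InU (n + 2 * A)) (phiY783 i s φ y) := by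
  intro u u' g hu hu'
  rw [phiY_eq846]
  exact hφ _ _ _ (E.conj_mem A n y hy u hu) (E.conj_mem' n y u' (E.conj_mem A n y hy u' hu'))

theorem ExtData846.phiY_conj (E : ExtData846 i s e) (n : ℕ) (φ : GL (Fin 2) k' → ℂ)
    (hφ : IsBiInv (InU n) φ) (y : GL (Fin 2) k') (g x : GL (Fin 2) k)
    (hg : GamY783 i n y g) : phiY783 i s φ y (g⁻¹ * x * g) = phiY783 i s φ y x := by
  rw [phiY_eq846]
  have h1 : InU n (y⁻¹ * Matrix.GeneralLinearGroup.map i g⁻¹ * y) := by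
    have e1 : y⁻¹ * Matrix.GeneralLinearGroup.map i g⁻¹ * y
        = (y⁻¹ * Matrix.GeneralLinearGroup.map i g * y)⁻¹ := by
      rw [map_inv]
      group
    rw [e1]
    exact inU_inv846 n _ hg
  exact hφ _ _ _ h1 (E.conj_mem' n y g hg)

theorem ExtData846.phiY_bdd (E : ExtData846 i s e) (A A' n : ℕ) (φ : GL (Fin 2) k' → ℂ)
    (F' : Finset (GL (Fin 2) k'))
    (hF' : ∀ g : GL (Fin 2) k', φ g ≠ 0 → ∃ x ∈ F', ∃ u : GL (Fin 2) k', InU n u ∧ g = x * u)
    (hA' : ∀ x ∈ F', EntryBdd783 (A' : ℤ) x)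
    (y : GL (Fin 2) k') (hy : EntryBdd783 (A : ℤ) y) (g : GL (Fin 2) k)
    (hne : phiY783 i s φ y g ≠ 0) : EntryBdd783 ((A + A' + A : ℕ) : ℤ) g := by
  obtain ⟨x, hx, u, hu, hw⟩ := hF' _ hne
  have h1 : EntryBdd783 ((A' : ℤ) + 0) (x * u) :=
    entryBdd_mul846 _ _ _ _ (hA' x hx) (entryBdd_of_inU846 n u hu)
  have h2 : Matrix.GeneralLinearGroup.map i g = y * (x * u) * (glAut s y)⁻¹ := by
    rw [← hw]
    group
  have h3 : EntryBdd783 ((A : ℤ) + ((A' : ℤ) + 0) + (A : ℤ))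
      (Matrix.GeneralLinearGroup.map i g) := by
    rw [h2]
    exact entryBdd_mul846 _ _ _ _ (entryBdd_mul846 _ _ _ _ hy h1)
      (entryBdd_inv846 _ _ (entryBdd_glAut846 s E.val_s _ y hy))
  refine entryBdd_of_map846 i e E.e_pos E.val_i _ g ?_
  have e4 : ((A + A' + A : ℕ) : ℤ) = (A : ℤ) + ((A' : ℤ) + 0) + (A : ℤ) := by
    push_cast
    ring
  rw [e4]
  exact h3

theorem ExtData846.gam_bdd (E : ExtData846 i s e) (A n : ℕ) (y : GL (Fin 2) k')
    (hy : EntryBdd783 (A : ℤ) y) (g : GL (Fin 2) k) (hg : GamY783 i n y g) :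
    EntryBdd783 ((A + A : ℕ) : ℤ) g := by
  have h2 : Matrix.GeneralLinearGroup.map i g
      = y * (y⁻¹ * Matrix.GeneralLinearGroup.map i g * y) * y⁻¹ := by group
  have h3 : EntryBdd783 ((A : ℤ) + 0 + (A : ℤ)) (Matrix.GeneralLinearGroup.map i g) := by
    rw [h2]
    exact entryBdd_mul846 _ _ _ _ (entryBdd_mul846 _ _ _ _ hy (entryBdd_of_inU846 n _ hg))
      (entryBdd_inv846 _ _ hy)
  refine entryBdd_of_map846 i e E.e_pos E.val_i _ g ?_
  have e4 : ((A + A : ℕ) : ℤ) = (A : ℤ) + 0 + (A : ℤ) := by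
    push_cast
    ring
  rw [e4]
  exact h3

theorem ExtData846.gam_int (E : ExtData846 i s e) (n : ℕ) (y : GL (Fin 2) k')
    (g : GL (Fin 2) k) (hg : GamY783 i n y g) :
    Valued.v (g : Matrix (Fin 2) (Fin 2) k).trace ≤ 1 ∧
      Valued.v (g : Matrix (Fin 2) (Fin 2) k).det = 1 := by
  have h1 := trace_le_of_entLe846 _ (entLe_of_inU846 n _ hg)
  have h2 := det_eq_one_of_inU846 n _ hg
  rw [trace_conj846, trace_map846, E.val_i] at h1
  rw [det_conj846, det_map846, E.val_i] at h2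
  exact ⟨le_one_of_pow_le_one846 _ e E.e_pos h1, eq_one_of_pow_eq_one846 _ e E.e_pos h2⟩

theorem gam_one846 (i : k →+* k') (n : ℕ) (y : GL (Fin 2) k') : GamY783 i n y 1 := by
  unfold GamY783
  rw [map_one, mul_one, inv_mul_cancel]
  exact inU_one846 n

theorem gam_mul846 (i : k →+* k') (n : ℕ) (y : GL (Fin 2) k') (g g' : GL (Fin 2) k)
    (hg : GamY783 i n y g) (hg' : GamY783 i n y g') : GamY783 i n y (g * g') := by
  unfold GamY783 at *
  have e1 : y⁻¹ * Matrix.GeneralLinearGroup.map i (g * g') * y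
      = (y⁻¹ * Matrix.GeneralLinearGroup.map i g * y)
        * (y⁻¹ * Matrix.GeneralLinearGroup.map i g' * y) := by
    rw [map_mul]
    group
  rw [e1]
  exact inU_mul846 n _ _ hg hg'

theorem gam_inv846 (i : k →+* k') (n : ℕ) (y : GL (Fin 2) k') (g : GL (Fin 2) k)
    (hg : GamY783 i n y g) : GamY783 i n y g⁻¹ := by
  unfold GamY783 at *
  have e1 : y⁻¹ * Matrix.GeneralLinearGroup.map i g⁻¹ * y
      = (y⁻¹ * Matrix.GeneralLinearGroup.map i g * y)⁻¹ := by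
    rw [map_inv]
    group
  rw [e1]
  exact inU_inv846 n _ hg

end PerY

/-- **T6.18g2-D0: the glue of the orbit decomposition.** -/
theorem decompGlueC846 : DecompGlueC783 := by
  intro hF hG hEx hUq hAdd
  intro k k' _ _ _ _ q l e i s n φ hB N₀ Y hcov
  classical
  have E : ExtData846 i s e :=
    ⟨hB.ext.e_pos, hB.ext.val_i, hB.ext.val_s, hB.ext.cyc.fix_i⟩
  -- Step 1: prune `Y`
  obtain ⟨Y', -, hdist, hcovY⟩ := prune846 (InDC783 i n) (inDC_refl846 i n)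
    (inDC_symm846 i n) (inDC_trans846 i n) Y
  -- Step 2: bounds
  obtain ⟨A, hA⟩ := exists_entryBdd_finset846 Y'
  obtain ⟨F', hF'⟩ := hB.supp
  obtain ⟨A', hA'⟩ := exists_entryBdd_finset846 F'
  set m : ℕ := n + 2 * A with hm
  -- Step 3: the functions `φ_y`
  have hinvY : ∀ y ∈ Y', IsBiInv (InU m) (phiY783 i s φ y) := fun y hy =>
    E.phiY_biInv A n φ hB.inv y (hA y hy)
  have hsuppY : ∀ y ∈ Y', HasFinSupp (InU m) (phiY783 i s φ y) := by
    intro y hy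
    obtain ⟨F, hFc⟩ := localFinite846 hB.hk (A + A' + A) m
    exact ⟨F, fun g hg => hFc g (E.phiY_bdd A A' n φ F' hF' hA' y (hA y hy) g hg)⟩
  -- Step 4: the constants of `GenLvlC783`
  have hκ : ∀ y ∈ Y', ∃ κ : ℕ, κ ≠ 0 ∧ ∀ ψ : GL (Fin 2) k → ℂ, IsBiInv (InU m) ψ →
      (∀ g x, GamY783 i n y g → ψ (g⁻¹ * x * g) = ψ x) →
      ∀ (h : GL (Fin 2) k) (c' : ℂ), IsReg h → IsOrbSum m ψ h c' →
        ∃ c : ℂ, IsOrbSumGam783 (GamY783 i n y) ψ h c ∧ c' = (κ : ℂ) * c := by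
    intro y hy
    refine hG k q hB.hk m (GamY783 i n y) (gam_one846 i n y) (gam_mul846 i n y)
      (gam_inv846 i n y) (fun g hg => E.conj_mem A n y (hA y hy) g hg)
      (fun g hg => E.gam_int n y g hg) ?_
    obtain ⟨F, hFc⟩ := localFinite846 hB.hk (A + A) m
    exact ⟨F, fun g hg => hFc g (E.gam_bdd A n y (hA y hy) g hg)⟩
  choose! κ hκ0 hκ1 using hκ
  -- Step 5: the function `ψ`
  refine ⟨m, ∑ y ∈ Y', fun g => ((κ y : ℂ))⁻¹ * phiY783 i s φ y g, ?_, ?_, ?_⟩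
  · exact isBiInv_sum846 _ Y' _ fun y hy => isBiInv_smul846 _ _ _ (hinvY y hy)
  · exact hasFinSupp_sum846 _ Y' _ fun y hy => hasFinSupp_smul846 _ _ _ (hsuppY y hy)
  -- Step 6: the identity
  intro h c c' hball hreg hc hc'
  have hregh : IsReg h := isReg_of_pow846 h l hreg
  have hex : ∀ y ∈ Y', ∃ c₁ : ℂ, IsOrbSum m (phiY783 i s φ y) h c₁ := fun y hy =>
    exists_orbSum846 hEx hB.hk m _ (hinvY y hy) (hsuppY y hy) h hregh
  choose! c₁ hc₁ using hex
  have hgen : ∀ y ∈ Y', ∃ c₂ : ℂ, IsOrbSumGam783 (GamY783 i n y) (phiY783 i s φ y) h c₂ ∧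
      c₁ y = (κ y : ℂ) * c₂ := fun y hy =>
    hκ1 y hy _ (hinvY y hy) (fun g x hg => E.phiY_conj n φ hB.inv y g x hg) h (c₁ y) hregh
      (hc₁ y hy)
  choose! c₂ hc₂ hc₁₂ using hgen
  have hcover : ∀ x : GL (Fin 2) k',
      φ (x⁻¹ * Matrix.GeneralLinearGroup.map i h * glAut s x) ≠ 0 →
        ∃ y ∈ Y', InDC783 i n y x := by
    intro x hx
    obtain ⟨y, hy, hyx⟩ := hcov h x hball hx
    obtain ⟨y', hy', hy'y⟩ := hcovY y hy
    exact ⟨y', hy', inDC_trans846 i n _ _ _ hy'y hyx⟩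
  have hfib : c = ∑ y ∈ Y', c₂ y :=
    hF k k' q l e i s n φ hB Y' hdist h hreg hcover c c₂ hc hc₂
  have hsum : IsOrbSum m (∑ y ∈ Y', fun g => ((κ y : ℂ))⁻¹ * phiY783 i s φ y g) h
      (∑ y ∈ Y', ((κ y : ℂ))⁻¹ * c₁ y) :=
    isOrbSum_sum846 hAdd m Y' _ _ h
      (fun y hy => isBiInv_smul846 _ _ _ (hinvY y hy))
      (fun y hy => isOrbSumGen_smul846 _ _ _ _ _ _ _
        (inv_ne_zero (Nat.cast_ne_zero.2 (hκ0 y hy))) (hc₁ y hy))
  have huniq := orbSum_unique846 hUq m _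
    (isBiInv_sum846 _ Y' _ fun y hy => isBiInv_smul846 _ _ _ (hinvY y hy)) h _ _ hc' hsum
  rw [huniq, hfib]
  refine (Finset.sum_congr rfl fun y hy => ?_).symm
  rw [hc₁₂ y hy, ← mul_assoc, inv_mul_cancel₀ (Nat.cast_ne_zero.2 (hκ0 y hy)), one_mul]

example : Fermat.Agent.LT.T6.H783.DecompGlueC783 := decompGlueC846

end Fermat.Agent.LT.T6.H846

end
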